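import Fermat.Agent.ThinSets.Reduction
import Mathlib.FieldTheory.Minpoly.IsIntegrallyClosed

/-!
# Few fibres have a root

For `g ∈ ℤ[x][Y]` monic of degree `m ≥ 2` and absolutely irreducible the fibres splitting into `m`
different linear factors are at least about `1 / D` of all, `D` the degree of the splitting field
over `ℚ̄ (x)`, at a positive proportion of the primes; as there are about `p ^ n` points, a fixed
proportion of the fibres has no root.
-/

set_option autoImplicit false
set_option linter.style.haveILetI false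

noncomputable section

namespace FA.ThinSets

open Polynomial Filter Topology
open MvPolynomial (eval₂Hom)
open FA.LangWeilAll (countError)

local notation "Qb" => AlgebraicClosure ℚ

/-- The specialisation of `g` at `x`. -/
def spec {n : ℕ} (g : (MvPolynomial (Fin n) ℤ)[X]) {R : Type*} [CommRing R] (x : Fin n → R) :
    R[X] :=
  g.map (eval₂Hom (Int.castRingHom R) x)

/-- `g` as a polynomial in all the variables, `Y` first. -/
def flat {n : ℕ} (g : (MvPolynomial (Fin n) ℤ)[X]) : MvPolynomial (Fin (n + 1)) ℤ :=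
  (MvPolynomial.finSuccEquiv ℤ n).symm g

theorem finSuccEquiv_map_flat {n : ℕ} (g : (MvPolynomial (Fin n) ℤ)[X]) {R : Type*} [CommRing R]
    (φ : ℤ →+* R) :
    MvPolynomial.finSuccEquiv R n ((flat g).map φ) = g.map (MvPolynomial.map φ) := by
  rw [← LangWeilAll.map_finSuccEquiv, flat, AlgEquiv.apply_symm_apply]

theorem eval_map_flat {n : ℕ} (g : (MvPolynomial (Fin n) ℤ)[X]) {R : Type*} [CommRing R]
    (x : Fin n → R) (y : R) :
    MvPolynomial.eval (Fin.cons y x : Fin (n + 1) → R) ((flat g).map (Int.castRingHom R)) =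
      (spec g x).eval y := by
  rw [MvPolynomial.eval_eq_eval_mv_eval', finSuccEquiv_map_flat, Polynomial.map_map, spec]
  exact congrArg (fun φ => (g.map φ).eval y)
    (MvPolynomial.ringHom_ext (fun r => by simp) fun i => by simp)

/-- A polynomial whose coefficients lie in `R` comes from `R`. -/
theorem exists_lift {σ : Type*} {R : Subring Qb} (q : MvPolynomial σ Qb)
    (h : ∀ x ∈ q.coeffs, x ∈ R) : ∃ q' : MvPolynomial σ R, q'.map R.subtype = q := by
  classical
  have hq : ∀ u, q.coeff u ∈ R := fun u => by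
    by_cases hu : q.coeff u = 0
    · rw [hu]; exact R.zero_mem
    · exact h _ (MvPolynomial.coeff_mem_coeffs u hu)
  exact ⟨∑ u ∈ q.support, MvPolynomial.monomial u ⟨q.coeff u, hq u⟩, by
    simp [map_sum, MvPolynomial.map_monomial, ← MvPolynomial.as_sum q]⟩

theorem eventually_ne_zero_map {σ : Type*} {R : Subring Qb} {q : MvPolynomial σ R} (hq : q ≠ 0) :
    ∃ p₀ : ℕ, ∀ p : ℕ, p₀ ≤ p → ∀ φ : R →+* ZMod p, q.map φ ≠ 0 := by
  obtain ⟨u, hu⟩ := MvPolynomial.exists_coeff_ne_zero hq
  obtain ⟨p₀, hp₀⟩ := ne_zero_of_hom hu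
  exact ⟨p₀, fun p hp φ e => hp₀ p hp φ (by rw [← MvPolynomial.coeff_map, e, MvPolynomial.coeff_zero])⟩

/-- A split separable polynomial as a product over `Fin m`. -/
theorem exists_linear_factors {L : Type*} [Field L] {P : L[X]} {m : ℕ} (hP : P.Monic)
    (hs : P.Splits) (hsep : P.Separable) (hd : P.natDegree = m) :
    ∃ α : Fin m → L, P = ∏ i, (Polynomial.X - C (α i)) := by
  classical
  have hnd : P.roots.Nodup := Polynomial.nodup_roots hsep
  have hcard : P.roots.toFinset.card = m := by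
    rw [Multiset.toFinset_card_of_nodup hnd, ← hs.natDegree_eq_card_roots, hd]
  refine ⟨fun i => ((P.roots.toFinset.equivFinOfCardEq hcard).symm i : L), ?_⟩
  conv_lhs => rw [hs.eq_prod_roots_of_monic hP, ← hnd.dedup, ← Multiset.toFinset_val,
    ← Finset.prod_eq_multiset_prod, ← Finset.prod_coe_sort]
  exact ((P.roots.toFinset.equivFinOfCardEq hcard).symm.prod_comp
    fun z : P.roots.toFinset => Polynomial.X - C (z : L)).symm

/-- The splitting data of `g`: the equation `F` of a primitive element, the roots as polynomials in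
it with denominator `δ`, and a Bezout identity for the discriminant. -/
theorem exists_splitting_data {n : ℕ} {g : (MvPolynomial (Fin n) Qb)[X]} {m : ℕ}
    (hm : g.Monic) (hdeg : g.natDegree = m) (hirr : Irreducible g) :
    ∃ (F : MvPolynomial (Fin (n + 1)) Qb) (A : Fin m → MvPolynomial (Fin (n + 1)) Qb)
      (B : ℕ → MvPolynomial (Fin (n + 1)) Qb) (δ e : MvPolynomial (Fin n) Qb)
      (U V : (MvPolynomial (Fin n) Qb)[X]),
      Irreducible F ∧ (MvPolynomial.finSuccEquiv Qb n F).Monic ∧ δ ≠ 0 ∧ e ≠ 0 ∧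
      U * g + V * derivative g = C e ∧
      ∀ j, (C (MvPolynomial.rename Fin.succ δ ^ m) *
          g.map (MvPolynomial.rename Fin.succ).toRingHom -
        ∏ i, (C (MvPolynomial.rename Fin.succ δ) * Polynomial.X - C (A i))).coeff j = F * B j := by
  classical
  obtain ⟨K, _, _, _, -⟩ : ∃ (K : Type) (_ : Field K) (_ : Algebra (MvPolynomial (Fin n) Qb) K)
      (_ : IsFractionRing (MvPolynomial (Fin n) Qb) K), True :=
    ⟨FractionRing (MvPolynomial (Fin n) Qb), inferInstance, inferInstance, inferInstance, trivial⟩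
  have hinj := IsFractionRing.injective (MvPolynomial (Fin n) Qb) K
  haveI : CharZero K := charZero_of_injective_ringHom hinj
  obtain ⟨gK, hgK⟩ : ∃ gK, gK = g.map (algebraMap (MvPolynomial (Fin n) Qb) K) := ⟨_, rfl⟩
  have hgKirr : Irreducible gK := hgK ▸ (hm.irreducible_iff_irreducible_map_fraction_map).1 hirr
  have hsep : gK.Separable := hgKirr.separable
  have hm0 : 0 < m := by
    have := hgKirr.natDegree_pos
    rwa [hgK, hm.natDegree_map, hdeg] at this
  -- the splitting field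
  obtain ⟨L, _, _, _, hs⟩ : ∃ (L : Type) (_ : Field L) (_ : Algebra K L)
      (_ : FiniteDimensional K L), (gK.map (algebraMap K L)).Splits :=
    ⟨gK.SplittingField, inferInstance, inferInstance, inferInstance, SplittingField.splits gK⟩
  letI : Algebra (MvPolynomial (Fin n) Qb) L :=
    ((algebraMap K L).comp (algebraMap (MvPolynomial (Fin n) Qb) K)).toAlgebra
  haveI : IsScalarTower (MvPolynomial (Fin n) Qb) K L := IsScalarTower.of_algebraMap_eq fun _ => rfl
  have hinjL : Function.Injective (algebraMap (MvPolynomial (Fin n) Qb) L) :=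
    (algebraMap K L).injective.comp hinj
  haveI : Module.IsTorsionFree (MvPolynomial (Fin n) Qb) L :=
    Module.isTorsionFree_iff_algebraMap_injective.2 hinjL
  obtain ⟨θ₀, hθ₀⟩ := Field.exists_primitive_element K L
  obtain ⟨⟨b, hb⟩, hint⟩ := IsIntegral.exists_multiple_integral_of_isLocalization
    (nonZeroDivisors (MvPolynomial (Fin n) Qb)) θ₀ (IsIntegral.of_finite K θ₀)
  have hint : IsIntegral (MvPolynomial (Fin n) Qb) (b • θ₀) := hint
  obtain ⟨θ, hθ⟩ : ∃ θ, θ = b • θ₀ := ⟨_, rfl⟩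
  rw [← hθ] at hint
  have hb0 : algebraMap (MvPolynomial (Fin n) Qb) K b ≠ 0 :=
    (map_ne_zero_iff _ hinj).2 (nonZeroDivisors.ne_zero hb)
  have hval : ∀ z : L, ∃ (δ : MvPolynomial (Fin n) Qb) (P : (MvPolynomial (Fin n) Qb)[X]),
      δ ≠ 0 ∧ aeval θ P = algebraMap _ L δ * z := by
    intro z
    have hz : z ∈ IntermediateField.adjoin K {θ} := by
      have h3 : (algebraMap (MvPolynomial (Fin n) Qb) K b)⁻¹ • θ = θ₀ := by
        rw [hθ, ← IsScalarTower.algebraMap_smul K b θ₀, smul_smul, inv_mul_cancel₀ hb0, one_smul]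
      have h0 : θ₀ ∈ IntermediateField.adjoin K {θ} := by
        have h2 := IntermediateField.smul_mem _ (IntermediateField.mem_adjoin_simple_self K θ)
          (x := (algebraMap (MvPolynomial (Fin n) Qb) K b)⁻¹)
        rwa [h3] at h2
      have h1 : IntermediateField.adjoin K {θ₀} ≤ IntermediateField.adjoin K {θ} :=
        IntermediateField.adjoin_simple_le_iff.2 h0
      exact h1 (hθ₀ ▸ IntermediateField.mem_top)
    rw [← IntermediateField.mem_toSubalgebra,
      IntermediateField.adjoin_simple_toSubalgebra_of_isAlgebraic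
        (IsIntegral.of_finite K θ).isAlgebraic, Algebra.adjoin_singleton_eq_range_aeval] at hz
    obtain ⟨Q, rfl⟩ := hz
    obtain ⟨δ, hδ, hδQ⟩ := IsLocalization.integerNormalization_spec
      (nonZeroDivisors (MvPolynomial (Fin n) Qb)) Q
    refine ⟨δ, IsLocalization.integerNormalization (nonZeroDivisors (MvPolynomial (Fin n) Qb)) Q,
      nonZeroDivisors.ne_zero hδ, ?_⟩
    rw [← aeval_map_algebraMap K θ, hδQ, ← IsScalarTower.algebraMap_smul K δ Q, map_smul,
      Algebra.smul_def, ← IsScalarTower.algebraMap_apply]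
    rfl
  obtain ⟨gL, hgL⟩ : ∃ gL, gL = g.map (algebraMap (MvPolynomial (Fin n) Qb) L) := ⟨_, rfl⟩
  have hgL' : gL = gK.map (algebraMap K L) := by
    rw [hgL, hgK, Polynomial.map_map]; rfl
  have hgLm : gL.Monic := hgL ▸ hm.map _
  rw [← hgL'] at hs
  obtain ⟨α, hprod⟩ := exists_linear_factors (m := m) hgLm hs (hgL' ▸ hsep.map)
    (by rw [hgL, hm.natDegree_map, hdeg])
  choose δs Ps hδs hPs using fun i => hval (α i)
  obtain ⟨δ, hδ⟩ : ∃ δ, δ = ∏ i, δs i := ⟨_, rfl⟩
  have hδ0 : δ ≠ 0 := hδ ▸ Finset.prod_ne_zero_iff.2 fun i _ => hδs i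
  obtain ⟨A, hA⟩ : ∃ A : Fin m → (MvPolynomial (Fin n) Qb)[X],
      ∀ i, A i = C (∏ l ∈ Finset.univ.erase i, δs l) * Ps i := ⟨_, fun _ => rfl⟩
  have hAθ : ∀ i, aeval θ (A i) = algebraMap _ L δ * α i := fun i => by
    rw [hA, map_mul, aeval_C, hPs, ← mul_assoc, ← map_mul,
      Finset.prod_erase_mul _ _ (Finset.mem_univ i), ← hδ]
  obtain ⟨F₀, hF₀⟩ : ∃ F₀, F₀ = minpoly (MvPolynomial (Fin n) Qb) θ := ⟨_, rfl⟩
  obtain ⟨G, hG⟩ : ∃ G : (MvPolynomial (Fin n) Qb)[X][X],
      G = C (C (δ ^ m)) * g.map C - ∏ i, (C (C δ) * Polynomial.X - C (A i)) := ⟨_, rfl⟩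
  have hG0 : G.map (aeval θ).toRingHom = 0 := by
    rw [hG, Polynomial.map_sub, Polynomial.map_mul, Polynomial.map_C, Polynomial.map_map,
      Polynomial.map_prod]
    rw [show (aeval θ).toRingHom.comp (C : MvPolynomial (Fin n) Qb →+* _) =
      algebraMap _ L from RingHom.ext fun a => aeval_C θ a, ← hgL, hprod, sub_eq_zero,
      show (aeval θ).toRingHom (C (δ ^ m)) = algebraMap _ L δ ^ m from
        (aeval_C θ _).trans (map_pow _ _ _), map_pow,
      show C (algebraMap _ L δ) ^ m = ∏ _i : Fin m, C (algebraMap _ L δ) by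
        rw [Finset.prod_const, Finset.card_univ, Fintype.card_fin], ← Finset.prod_mul_distrib]
    refine Finset.prod_congr rfl fun i _ => ?_
    rw [Polynomial.map_sub, Polynomial.map_mul, Polynomial.map_C, Polynomial.map_X,
      Polynomial.map_C, show (aeval θ).toRingHom (C δ) = algebraMap _ L δ from aeval_C θ _,
      show (aeval θ).toRingHom (A i) = _ from hAθ i, map_mul]
    ring
  have hdvd : ∀ j, F₀ ∣ G.coeff j := fun j => hF₀ ▸ minpoly.isIntegrallyClosed_dvd hint (by
    have := congrArg (fun P => P.coeff j) hG0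
    simpa using this)
  choose B hB using hdvd
  clear hG0
  obtain ⟨U, V, -, -, hUV⟩ := Polynomial.exists_mul_add_mul_eq_C_resultant g (derivative g)
    le_rfl le_rfl (Or.inl (by omega))
  have he : resultant g (derivative g) ≠ 0 := by
    have h1 : IsCoprime gK (derivative gK) := hsep
    have h2 := resultant_ne_zero _ _ h1
    rw [hgK, derivative_map, resultant_map_map, natDegree_map_eq_of_injective hinj,
      natDegree_map_eq_of_injective hinj] at h2
    exact fun e => h2 (by rw [e, map_zero])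
  refine ⟨(MvPolynomial.finSuccEquiv Qb n).symm F₀, fun i => (MvPolynomial.finSuccEquiv Qb n).symm (A i),
    fun j => (MvPolynomial.finSuccEquiv Qb n).symm (B j), δ, _, U, V,
    (MulEquiv.irreducible_iff (MvPolynomial.finSuccEquiv Qb n).symm).2 (hF₀ ▸ minpoly.irreducible hint),
    by rw [AlgEquiv.apply_symm_apply, hF₀]; exact minpoly.monic hint, hδ0, he,
    by rw [mul_comm U, mul_comm V, hUV], fun j => ?_⟩
  obtain ⟨E, hE⟩ : ∃ E : (MvPolynomial (Fin n) Qb)[X] →+* MvPolynomial (Fin (n + 1)) Qb,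
      E = ((MvPolynomial.finSuccEquiv Qb n).symm : _ →ₐ[Qb] _).toRingHom := ⟨_, rfl⟩
  have hEC : E.comp C = (MvPolynomial.rename (R := Qb) Fin.succ).toRingHom := by
    refine MvPolynomial.ringHom_ext (fun a => ?_) fun i => ?_ <;>
      · rw [hE]
        show (MvPolynomial.finSuccEquiv Qb n).symm _ = _
        rw [AlgEquiv.symm_apply_eq]
        simp [MvPolynomial.finSuccEquiv_apply]
  have h1 := congrArg E (hB j)
  rw [← Polynomial.coeff_map, hG, Polynomial.map_sub, Polynomial.map_mul, Polynomial.map_C,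
    Polynomial.map_map, hEC, Polynomial.map_prod] at h1
  have hC : ∀ a, E (C a) = MvPolynomial.rename Fin.succ a := fun a => RingHom.congr_fun hEC a
  simp only [Polynomial.map_sub, Polynomial.map_mul, Polynomial.map_C, Polynomial.map_X, hC,
    map_mul, map_pow] at h1
  have hE' : ∀ z, E z = (MvPolynomial.finSuccEquiv Qb n).symm z := fun z => by rw [hE]; rfl
  simp only [hE'] at h1
  beta_reduce
  rw [map_pow]
  exact h1

/-- The splitting data with coefficients in a ring mapping to many prime fields. -/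
theorem exists_model {n : ℕ} {g : (MvPolynomial (Fin n) ℤ)[X]} {m : ℕ} (hm : g.Monic)
    (hdeg : g.natDegree = m)
    (hirr : Irreducible (g.map (MvPolynomial.map (Int.castRingHom Qb)))) :
    ∃ (R : Subring Qb) (F : MvPolynomial (Fin (n + 1)) R)
      (A : Fin m → MvPolynomial (Fin (n + 1)) R) (B : ℕ → MvPolynomial (Fin (n + 1)) R)
      (δ e : MvPolynomial (Fin n) R) (U V : (MvPolynomial (Fin n) R)[X]) (κ : ℝ),
      0 < κ ∧ (∀ᶠ N : ℕ in atTop, κ * ((N : ℝ) / Real.log N) ≤ (goodPrimes R N).card) ∧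
      Irreducible (F.map R.subtype) ∧ (MvPolynomial.finSuccEquiv R n F).Monic ∧ δ * e ≠ 0 ∧
      U * g.map (MvPolynomial.map (Int.castRingHom R)) +
        V * derivative (g.map (MvPolynomial.map (Int.castRingHom R))) = C e ∧
      ∀ j, j ≤ m → (C (MvPolynomial.rename Fin.succ δ ^ m) *
          (g.map (MvPolynomial.map (Int.castRingHom R))).map (MvPolynomial.rename Fin.succ).toRingHom -
        ∏ i, (C (MvPolynomial.rename Fin.succ δ) * Polynomial.X - C (A i))).coeff j = F * B j := by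
  classical
  obtain ⟨F, A, B, δ, e, U, V, hFirr, hFm, hδ, he, hUV, hG⟩ :=
    exists_splitting_data (hm.map (MvPolynomial.map (Int.castRingHom Qb)))
      (by rw [hm.natDegree_map, hdeg]) hirr
  obtain ⟨s, hs⟩ : ∃ s : Finset Qb, s = F.coeffs ∪ δ.coeffs ∪ e.coeffs ∪
      Finset.univ.biUnion (fun i => (A i).coeffs) ∪
      (Finset.range (m + 1)).biUnion (fun j => (B j).coeffs) ∪
      U.support.biUnion (fun j => (U.coeff j).coeffs) ∪
      V.support.biUnion (fun j => (V.coeff j).coeffs) := ⟨_, rfl⟩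
  obtain ⟨R, hR, κ, hκ, hprimes⟩ := exists_subring s
  obtain ⟨F', hF'⟩ := exists_lift (R := R) F fun x hx => hR x (by rw [hs]; simp [hx])
  obtain ⟨δ', hδ'⟩ := exists_lift (R := R) δ fun x hx => hR x (by rw [hs]; simp [hx])
  obtain ⟨e', he'⟩ := exists_lift (R := R) e fun x hx => hR x (by rw [hs]; simp [hx])
  choose A' hA' using fun i => exists_lift (R := R) (A i) fun x hx => hR x (by
    rw [hs]
    simp only [Finset.mem_union, Finset.mem_biUnion, Finset.mem_univ, true_and]
    exact Or.inl (Or.inl (Or.inl (Or.inr ⟨i, hx⟩))))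
  have hBmem : ∀ j, j ≤ m → ∃ q : MvPolynomial (Fin (n + 1)) R, q.map R.subtype = B j := fun j hj =>
    exists_lift _ fun x hx => hR x (by
      rw [hs]
      simp only [Finset.mem_union, Finset.mem_biUnion, Finset.mem_range]
      exact Or.inl (Or.inl (Or.inr ⟨j, by omega, hx⟩)))
  choose! B' hB' using hBmem
  have hlift : ∀ W : (MvPolynomial (Fin n) Qb)[X],
      W.support.biUnion (fun j => (W.coeff j).coeffs) ⊆ s →
        ∃ W' : (MvPolynomial (Fin n) R)[X], W'.map (MvPolynomial.map R.subtype) = W := by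
    intro W hW
    choose w hw using fun j => exists_lift (R := R) (W.coeff j) fun x hx => hR x (by
      by_cases hj : j ∈ W.support
      · exact hW (Finset.mem_biUnion.2 ⟨j, hj, hx⟩)
      · rw [Polynomial.notMem_support_iff.1 hj, MvPolynomial.coeffs_zero] at hx
        exact absurd hx (Finset.notMem_empty x))
    refine ⟨∑ j ∈ W.support, C (w j) * Polynomial.X ^ j, ?_⟩
    simp [Polynomial.map_sum, hw, ← Polynomial.as_sum_support_C_mul_X_pow]
  obtain ⟨U', hU'⟩ := hlift U (by
    intro x hx; rw [hs]; simp only [Finset.mem_union]; exact Or.inl (Or.inr hx))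
  obtain ⟨V', hV'⟩ := hlift V (by
    intro x hx; rw [hs]; simp only [Finset.mem_union]; exact Or.inr hx)
  have hRinj : Function.Injective R.subtype := Subtype.val_injective
  obtain ⟨gR, hgR⟩ : ∃ gR, gR = g.map (MvPolynomial.map (Int.castRingHom R)) := ⟨_, rfl⟩
  have hgR' : gR.map (MvPolynomial.map R.subtype) = g.map (MvPolynomial.map (Int.castRingHom Qb)) := by
    rw [hgR, Polynomial.map_map]
    exact congrArg (fun φ => g.map φ)
      (MvPolynomial.ringHom_ext (fun r => by simp) fun i => by simp)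
  refine ⟨R, F', A', B', δ', e', U', V', κ, hκ, hprimes, hF'.symm ▸ hFirr, ?_, ?_, ?_, ?_⟩
  · rw [← hF', ← LangWeilAll.map_finSuccEquiv] at hFm
    exact Polynomial.monic_of_injective (MvPolynomial.map_injective _ hRinj) hFm
  · exact fun h => mul_ne_zero hδ he (by rw [← hδ', ← he', ← map_mul, h, map_zero])
  · rw [← hgR]
    refine Polynomial.map_injective _ (MvPolynomial.map_injective _ hRinj) ?_
    simp only [Polynomial.map_add, Polynomial.map_mul, ← derivative_map, hgR', hU', hV',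
      Polynomial.map_C, he', hUV]
  · intro j hj
    rw [← hgR]
    refine MvPolynomial.map_injective _ hRinj ?_
    rw [map_mul, hF', hB' j hj, ← hG j, ← Polynomial.coeff_map]
    refine congrArg (fun P : Polynomial _ => P.coeff j) ?_
    have hren : (MvPolynomial.map R.subtype).comp
        (MvPolynomial.rename (R := R) (Fin.succ (n := n))).toRingHom =
          (MvPolynomial.rename (R := Qb) Fin.succ).toRingHom.comp (MvPolynomial.map R.subtype) :=
      RingHom.ext fun q => MvPolynomial.map_rename _ _ q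
    rw [← hgR', Polynomial.map_map _ _ gR, ← hren, ← Polynomial.map_map]
    simp only [Polynomial.map_sub, Polynomial.map_mul, Polynomial.map_C, Polynomial.map_X,
      Polynomial.map_prod, Polynomial.map_pow, map_pow, MvPolynomial.map_rename, hδ', hA']

/-- Over a point of `F = 0` off `δ e = 0` the fibre has `m` different roots. -/
theorem card_roots_of_identities {n m : ℕ} {R k : Type*} [CommRing R] [Field k] (φ : R →+* k)
    {g : (MvPolynomial (Fin n) R)[X]} (hm : g.Monic) (hdeg : g.natDegree = m)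
    {F : MvPolynomial (Fin (n + 1)) R} {A : Fin m → MvPolynomial (Fin (n + 1)) R}
    {B : ℕ → MvPolynomial (Fin (n + 1)) R} {δ e : MvPolynomial (Fin n) R}
    {U V : (MvPolynomial (Fin n) R)[X]} (hUV : U * g + V * derivative g = C e)
    (hG : ∀ j, j ≤ m → (C (MvPolynomial.rename Fin.succ δ ^ m) *
          g.map (MvPolynomial.rename Fin.succ).toRingHom -
        ∏ i, (C (MvPolynomial.rename Fin.succ δ) * Polynomial.X - C (A i))).coeff j = F * B j)
    (x : Fin n → k) (hx : MvPolynomial.eval x ((δ * e).map φ) ≠ 0) (w : k)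
    (hw : MvPolynomial.eval (Fin.cons w x : Fin (n + 1) → k) (F.map φ) = 0) [DecidableEq k] :
    (g.map ((MvPolynomial.eval x).comp (MvPolynomial.map φ))).roots.toFinset.card = m := by
  obtain ⟨ψ, hψ⟩ : ∃ ψ, ψ = (MvPolynomial.eval x).comp (MvPolynomial.map φ) := ⟨_, rfl⟩
  rw [← hψ]
  obtain ⟨ev, hev⟩ : ∃ ev, ev = (MvPolynomial.eval (Fin.cons w x : Fin (n + 1) → k)).comp
      (MvPolynomial.map φ) := ⟨_, rfl⟩
  obtain ⟨d, hd⟩ : ∃ d, d = ψ δ := ⟨_, rfl⟩
  have hren : ev.comp (MvPolynomial.rename (R := R) Fin.succ).toRingHom = ψ :=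
    MvPolynomial.ringHom_ext (fun r => by simp [hev, hψ]) fun i => by simp [hev, hψ]
  have hd' : ev (MvPolynomial.rename Fin.succ δ) = d := (RingHom.congr_fun hren δ).trans hd.symm
  have hx' : d ≠ 0 ∧ ψ e ≠ 0 := by
    rw [map_mul, map_mul, mul_ne_zero_iff] at hx
    rw [hd, hψ]
    exact hx
  have hG0 : (C (MvPolynomial.rename Fin.succ δ ^ m) *
      g.map (MvPolynomial.rename Fin.succ).toRingHom -
        ∏ i, (C (MvPolynomial.rename Fin.succ δ) * Polynomial.X - C (A i))).map ev = 0 := by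
    ext j : 1
    rw [Polynomial.coeff_zero, Polynomial.coeff_map]
    rcases le_or_gt j m with hj | hj
    · rw [hG j hj, map_mul, show ev F = 0 by rw [hev]; exact hw, zero_mul]
    · rw [Polynomial.coeff_eq_zero_of_natDegree_lt, map_zero]
      refine lt_of_le_of_lt ((natDegree_sub_le _ _).trans (max_le ?_ ?_)) hj
      · exact (natDegree_C_mul_le _ _).trans (natDegree_map_le.trans hdeg.le)
      · refine (natDegree_prod_le _ _).trans ((Finset.sum_le_card_nsmul _ _ 1 fun i _ => ?_).trans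
          (by simp))
        exact (natDegree_sub_le _ _).trans (max_le ((natDegree_C_mul_le _ _).trans natDegree_X_le)
          (by simp))
  rw [Polynomial.map_sub, Polynomial.map_mul, Polynomial.map_C, Polynomial.map_map, hren,
    Polynomial.map_prod, sub_eq_zero, map_pow, hd'] at hG0
  have hprod : g.map ψ = ∏ i, (Polynomial.X - C (d⁻¹ * ev (A i))) := by
    refine mul_left_cancel₀ (C_ne_zero.2 (pow_ne_zero m hx'.1)) (hG0.trans ?_)
    rw [map_pow, show C d ^ m = ∏ _i : Fin m, C d by simp, ← Finset.prod_mul_distrib]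
    refine Finset.prod_congr rfl fun i _ => ?_
    rw [Polynomial.map_sub, Polynomial.map_mul, Polynomial.map_C, Polynomial.map_C, Polynomial.map_X,
      hd', mul_sub, ← C_mul, ← mul_assoc, mul_inv_cancel₀ hx'.1, one_mul]
  have hsep : (g.map ψ).Separable := by
    have h := congrArg (Polynomial.map ψ) hUV
    rw [Polynomial.map_add, Polynomial.map_mul, Polynomial.map_mul, ← derivative_map,
      Polynomial.map_C] at h
    refine ⟨C (ψ e)⁻¹ * U.map ψ, C (ψ e)⁻¹ * V.map ψ, ?_⟩
    rw [mul_assoc, mul_assoc, ← mul_add, h, ← C_mul, inv_mul_cancel₀ hx'.2, C_1]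
  have hsp : (g.map ψ).Splits := hprod ▸ Polynomial.Splits.prod fun i _ => Polynomial.Splits.X_sub_C _
  rw [Multiset.toFinset_card_of_nodup (Polynomial.nodup_roots hsep),
    ← hsp.natDegree_eq_card_roots]
  haveI : Nontrivial R := φ.domain_nontrivial
  rw [hm.natDegree_map, hdeg]

section Fibres

variable {n : ℕ} {k : Type*} [Field k] [Fintype k] [DecidableEq k]

theorem card_fibre_eq {G : MvPolynomial (Fin (n + 1)) k}
    (hG : (MvPolynomial.finSuccEquiv k n G).Monic) (x : Fin n → k) :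
    (Finset.univ.filter fun z : Fin (n + 1) → k => MvPolynomial.eval z G = 0 ∧ Fin.tail z = x).card =
      ((MvPolynomial.finSuccEquiv k n G).map (MvPolynomial.eval x)).roots.toFinset.card := by
  refine Finset.card_bij (fun z _ => z 0) (fun z hz => ?_) (fun z hz z' hz' h => ?_)
    fun y hy => ⟨Fin.cons y x, ?_, by simp⟩
  · rw [Finset.mem_filter] at hz
    rw [Multiset.mem_toFinset, mem_roots (hG.map _).ne_zero, IsRoot,
      ← MvPolynomial.eval_eq_eval_mv_eval', ← hz.2.2, Fin.cons_self_tail]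
    exact hz.2.1
  · rw [Finset.mem_filter] at hz hz'
    rw [← Fin.cons_self_tail z, ← Fin.cons_self_tail z', hz.2.2, hz'.2.2]
    exact congrArg (fun t => (Fin.cons t x : Fin (n + 1) → k)) h
  · rw [Multiset.mem_toFinset, mem_roots (hG.map _).ne_zero, IsRoot,
      ← MvPolynomial.eval_eq_eval_mv_eval'] at hy
    simp [hy]

theorem natCard_zeros_eq_sum {G : MvPolynomial (Fin (n + 1)) k}
    (hG : (MvPolynomial.finSuccEquiv k n G).Monic) :
    Nat.card {z : Fin (n + 1) → k // MvPolynomial.eval z G = 0} =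
      ∑ x : Fin n → k,
        ((MvPolynomial.finSuccEquiv k n G).map (MvPolynomial.eval x)).roots.toFinset.card := by
  rw [Nat.card_eq_fintype_card, Fintype.card_subtype,
    Finset.card_eq_sum_card_fiberwise (f := Fin.tail) (t := Finset.univ) fun _ _ => Finset.mem_univ _]
  refine Finset.sum_congr rfl fun x _ => ?_
  rw [← card_fibre_eq hG, Finset.filter_filter]

theorem natCard_zeros_le_mul {G : MvPolynomial (Fin (n + 1)) k} {D : ℕ}
    (hG : (MvPolynomial.finSuccEquiv k n G).Monic)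
    (hD : (MvPolynomial.finSuccEquiv k n G).natDegree ≤ D) (T : Finset (Fin n → k))
    (hT : ∀ z, MvPolynomial.eval z G = 0 → Fin.tail z ∈ T) :
    Nat.card {z : Fin (n + 1) → k // MvPolynomial.eval z G = 0} ≤ D * T.card := by
  rw [Nat.card_eq_fintype_card, Fintype.card_subtype]
  refine Finset.card_le_mul_card_image_of_maps_to (f := Fin.tail)
    (fun z hz => hT z (Finset.mem_filter.1 hz).2) D fun x _ => ?_
  rw [Finset.filter_filter, card_fibre_eq hG]
  exact ((Multiset.toFinset_card_le _).trans (card_roots' _)).trans (natDegree_map_le.trans hD)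

end Fibres

theorem few_fibres_real {D E C₁ C₂ C₃ m : ℕ} (hD : 1 ≤ D) (hm : 2 ≤ m) (hE : C₁ + C₂ + C₃ ≤ E)
    {X₁ X₂ NF Ng Nd : ℕ} {p q s : ℝ} (hs : s * s = p) (hs1 : 1 ≤ s)
    (hsE : 2 * (D : ℝ) * E ≤ s) (hq : 0 ≤ q)
    (hX : X₁ + (m - 1) * X₂ ≤ Ng) (hsplit : NF ≤ D * (X₂ + Nd))
    (hNF : q - C₁ * q / s ≤ NF) (hNg : (Ng : ℝ) ≤ q + C₂ * q / s) (hNd : (Nd : ℝ) * p ≤ C₃ * q) :
    (X₁ : ℝ) ≤ (1 - 1 / (2 * D)) * q := by
  have hs0 : 0 < s := by linarith
  obtain ⟨t, ht⟩ : ∃ t, t = q / s := ⟨_, rfl⟩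
  have ht0 : 0 ≤ t := ht ▸ div_nonneg hq hs0.le
  rw [mul_div_assoc, ← ht] at hNF hNg
  have hX' : (X₁ : ℝ) + X₂ ≤ Ng := by
    have : X₁ + X₂ ≤ Ng :=
      le_trans (Nat.add_le_add_left (Nat.le_mul_of_pos_left _ (by omega)) _) hX
    exact_mod_cast this
  have hsplit' : (NF : ℝ) ≤ D * (X₂ + Nd) := by exact_mod_cast hsplit
  have hNd' : (Nd : ℝ) ≤ C₃ * t := by
    rw [ht, ← mul_div_assoc, le_div_iff₀ hs0]
    nlinarith [mul_le_mul_of_nonneg_left hs1 (mul_nonneg (Nat.cast_nonneg (α := ℝ) Nd) hs0.le)]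
  have hkey : 2 * (D : ℝ) * E * t ≤ q := by
    rw [ht, ← mul_div_assoc, div_le_iff₀ hs0]
    nlinarith [mul_le_mul_of_nonneg_right hsE hq]
  have hE' : (C₁ : ℝ) + C₂ + C₃ ≤ E := by exact_mod_cast hE
  have hD' : (1 : ℝ) ≤ D := by exact_mod_cast hD
  rw [one_sub_div (by positivity), div_mul_eq_mul_div, le_div_iff₀ (by positivity)]
  nlinarith [mul_le_mul_of_nonneg_left hE' (mul_nonneg (by linarith : (0 : ℝ) ≤ D) ht0),
    mul_le_mul_of_nonneg_left (Nat.cast_nonneg (α := ℝ) C₁)
      (mul_nonneg (by linarith : (0 : ℝ) ≤ (D : ℝ) - 1) ht0),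
    mul_le_mul_of_nonneg_left hX' (by linarith : (0 : ℝ) ≤ D),
    mul_le_mul_of_nonneg_left hNg (by linarith : (0 : ℝ) ≤ D),
    mul_le_mul_of_nonneg_left hNd' (by linarith : (0 : ℝ) ≤ D)]

/-- **Few fibres have a root.** -/
theorem exists_few_fibres {n : ℕ} {g : (MvPolynomial (Fin n) ℤ)[X]} {m : ℕ} (hm : g.Monic)
    (hdeg : g.natDegree = m) (h2 : 2 ≤ m)
    (hirr : Irreducible (g.map (MvPolynomial.map (Int.castRingHom Qb)))) :
    ∃ c κ : ℝ, 0 < c ∧ 0 < κ ∧ ∀ᶠ N : ℕ in atTop, ∃ P : Finset ℕ,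
      (∀ p ∈ P, p.Prime ∧ p ≤ N) ∧ κ * ((N : ℝ) / Real.log N) ≤ P.card ∧
      ∀ p ∈ P, (Nat.card {x : Fin n → ZMod p // ∃ y, (spec g x).eval y = 0} : ℝ) ≤
        (1 - c) * (p : ℝ) ^ n := by
  classical
  obtain ⟨R, F, A, B, δ, e, U, V, κ, hκ, hprimes, hFirr, hFm, hne, hUV, hG⟩ :=
    exists_model hm hdeg hirr
  obtain ⟨pF, hpF⟩ := exists_irreducible_hom R F hFirr
  obtain ⟨pg, hpg⟩ := exists_irreducible_hom R ((flat g).map (Int.castRingHom R)) (by
    rw [MvPolynomial.map_map, RingHom.ext_int (R.subtype.comp (Int.castRingHom R)) (Int.castRingHom Qb),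
      ← MulEquiv.irreducible_iff (MvPolynomial.finSuccEquiv Qb n), finSuccEquiv_map_flat]
    exact hirr)
  obtain ⟨pne, hpne⟩ := eventually_ne_zero_map hne
  obtain ⟨D, hD⟩ : ∃ D, D = (MvPolynomial.finSuccEquiv R n F).natDegree := ⟨_, rfl⟩
  have hD0 : 1 ≤ D := by
    refine Nat.pos_of_ne_zero fun h => hFirr.not_isUnit ?_
    rw [show F = 1 from (MvPolynomial.finSuccEquiv R n).injective (by
      rw [map_one, Polynomial.eq_one_of_monic_natDegree_zero hFm (hD ▸ h)]), map_one]
    exact isUnit_one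
  obtain ⟨E, hE⟩ : ∃ E, E = countError F.totalDegree +
      countError (flat g).totalDegree + (δ * e).totalDegree := ⟨_, rfl⟩
  obtain ⟨p₀, hp₀⟩ : ∃ p₀, p₀ = max (max pF pg) (max pne ((2 * D * E) ^ 2)) := ⟨_, rfl⟩
  refine ⟨1 / (2 * D), κ / 2, by positivity, by linarith, ?_⟩
  filter_upwards [hprimes, eventually_sub_le (show 0 < κ / 2 by linarith) p₀] with N h1 h3
  refine ⟨(goodPrimes R N) \ Finset.range p₀, fun p hp => ?_, ?_, fun p hp => ?_⟩
  · obtain ⟨hpN, hp, -⟩ := mem_goodPrimes.1 (Finset.mem_sdiff.1 hp).1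
    exact ⟨hp, hpN⟩
  · have h4 : ((goodPrimes R N).card : ℝ) ≤ ((goodPrimes R N) \ Finset.range p₀).card + p₀ := by
      have := Finset.card_le_card_sdiff_add_card (s := goodPrimes R N) (t := Finset.range p₀)
      rw [Finset.card_range] at this
      exact_mod_cast this
    linarith
  obtain ⟨hpmem, hplarge⟩ := Finset.mem_sdiff.1 hp
  rw [Finset.mem_range, not_lt, hp₀] at hplarge
  obtain ⟨-, hprime, ⟨φ⟩⟩ := mem_goodPrimes.1 hpmem
  haveI := Fact.mk hprime
  simp only [max_le_iff] at hplarge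
  obtain ⟨gp, hgp⟩ : ∃ gp, gp = (flat g).map (Int.castRingHom (ZMod p)) := ⟨_, rfl⟩
  obtain ⟨dp, hdp⟩ : ∃ dp, dp = (δ * e).map φ := ⟨_, rfl⟩
  have hWF := (abs_le.1 (LangWeilAll.abs_natCard_sub_le (LangWeilAll.totalDegree_map_le φ F)
    (hpF p hplarge.1.1 φ))).1
  have hgirr := hpg p hplarge.1.2 φ
  rw [MvPolynomial.map_map (Int.castRingHom R),
    RingHom.ext_int (φ.comp (Int.castRingHom R)) (Int.castRingHom (ZMod p))] at hgirr
  have hWg := (abs_le.1 (LangWeilAll.abs_natCard_sub_le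
    (LangWeilAll.totalDegree_map_le (Int.castRingHom (ZMod p)) (flat g)) hgirr)).2
  rw [Nat.card_zmod] at hWF hWg
  rw [← hgp] at hWg
  have hdp0 : dp ≠ 0 := hdp ▸ hpne p hplarge.2.1 φ
  have hdpdeg := (LangWeilAll.natCard_zeros_mul_le hdp0).trans (Nat.mul_le_mul_right _
    (hdp ▸ LangWeilAll.totalDegree_map_le φ (δ * e) : dp.totalDegree ≤ (δ * e).totalDegree))
  rw [Nat.card_zmod] at hdpdeg
  have hspec : ∀ x : Fin n → ZMod p, (g.map (MvPolynomial.map (Int.castRingHom R))).map
      ((MvPolynomial.eval x).comp (MvPolynomial.map φ)) = spec g x := fun x => by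
    rw [Polynomial.map_map, spec]
    exact congrArg (fun ψ => g.map ψ)
      (MvPolynomial.ringHom_ext (fun r => by simp) fun i => by simp)
  have hspec' : ∀ x : Fin n → ZMod p,
      (MvPolynomial.finSuccEquiv (ZMod p) n gp).map (MvPolynomial.eval x) = spec g x := fun x => by
    rw [hgp, finSuccEquiv_map_flat, Polynomial.map_map, spec]
    exact congrArg (fun ψ => g.map ψ)
      (MvPolynomial.ringHom_ext (fun r => by simp) fun i => by simp)
  have hgpm : (MvPolynomial.finSuccEquiv (ZMod p) n gp).Monic := by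
    rw [hgp, finSuccEquiv_map_flat]; exact hm.map _
  obtain ⟨X₁, hX₁⟩ : ∃ X₁ : Finset (Fin n → ZMod p),
      X₁ = Finset.univ.filter fun x => ∃ y, (spec g x).eval y = 0 := ⟨_, rfl⟩
  obtain ⟨X₂, hX₂⟩ : ∃ X₂ : Finset (Fin n → ZMod p),
      X₂ = Finset.univ.filter fun x => (spec g x).roots.toFinset.card = m := ⟨_, rfl⟩
  obtain ⟨T, hT⟩ : ∃ T : Finset (Fin n → ZMod p),
      T = Finset.univ.filter fun x => MvPolynomial.eval x dp = 0 := ⟨_, rfl⟩
  have hX : X₁.card + (m - 1) * X₂.card ≤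
      Nat.card {z : Fin (n + 1) → ZMod p // MvPolynomial.eval z gp = 0} := by
    rw [natCard_zeros_eq_sum hgpm, hX₁, hX₂, Finset.card_filter, Finset.card_filter, Finset.mul_sum,
      ← Finset.sum_add_distrib]
    refine Finset.sum_le_sum fun x _ => ?_
    rw [hspec']
    by_cases h : (spec g x).roots.toFinset.card = m
    · simp only [h, if_true]
      split_ifs <;> omega
    · rw [if_neg h, mul_zero, add_zero]
      split_ifs with h'
      · obtain ⟨y, hy⟩ := h'
        exact Finset.card_pos.2 ⟨y, by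
          rw [Multiset.mem_toFinset, spec, mem_roots (hm.map _).ne_zero]; exact hy⟩
      · exact Nat.zero_le _
  have hFp : (MvPolynomial.finSuccEquiv (ZMod p) n (F.map φ)).Monic ∧
      (MvPolynomial.finSuccEquiv (ZMod p) n (F.map φ)).natDegree ≤ D := by
    rw [← LangWeilAll.map_finSuccEquiv]
    exact ⟨hFm.map _, natDegree_map_le.trans hD.ge⟩
  have hsplit := natCard_zeros_le_mul hFp.1 hFp.2 (X₂ ∪ T) fun z hz => by
    rw [Finset.mem_union, hX₂, hT, Finset.mem_filter, Finset.mem_filter]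
    refine (em (MvPolynomial.eval (Fin.tail z) dp = 0)).symm.imp (fun h => ⟨Finset.mem_univ _, ?_⟩)
      fun h => ⟨Finset.mem_univ _, h⟩
    rw [← hspec]
    exact card_roots_of_identities φ (hm.map _) (by rw [hm.natDegree_map, hdeg]) hUV hG
      (Fin.tail z) (hdp ▸ h) (z 0) (by rw [Fin.cons_self_tail]; exact hz)
  have hTcard : T.card = Nat.card {x : Fin n → ZMod p // MvPolynomial.eval x dp = 0} := by
    rw [hT, Nat.card_eq_fintype_card, Fintype.card_subtype]
  rw [← hTcard] at hdpdeg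
  rw [show Nat.card {x : Fin n → ZMod p // ∃ y, (spec g x).eval y = 0} = X₁.card by
    rw [hX₁, Nat.card_eq_fintype_card, Fintype.card_subtype]]
  have hp0 : (0 : ℝ) < p := Nat.cast_pos.2 hprime.pos
  exact few_fibres_real (E := E) (C₁ := countError F.totalDegree)
    (C₂ := countError (flat g).totalDegree) (C₃ := (δ * e).totalDegree) hD0 h2 hE.ge
    (Real.mul_self_sqrt hp0.le) (Real.one_le_sqrt.2 (by exact_mod_cast hprime.one_le))
    (Real.le_sqrt_of_sq_le (by exact_mod_cast hplarge.2.2)) (pow_nonneg hp0.le n) hX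
    (hsplit.trans (Nat.mul_le_mul_left _ (Finset.card_union_le _ _))) (by linarith) (by linarith)
    (by exact_mod_cast hdpdeg)

end FA.ThinSets

end
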