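import Fermat.Agent.ThinSets.Sieve
import Fermat.Agent.ThinSets.Geometry
import Mathlib.FieldTheory.Galois.Infinite

/-!
# The theorem of Cohen on thin sets

If `f ∈ ℤ[x][Y]` is irreducible over `ℚ` of degree at least `2` in `Y`, the integral points of the
box of side `N` over which it has a rational root are `O (N ^ (n - 1/2) log N)`: when it is
absolutely irreducible by the large sieve, otherwise as they lie on a hypersurface.
-/

set_option autoImplicit false
set_option linter.style.haveILetI false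

noncomputable section

namespace FA.ThinSets

open Polynomial
open MvPolynomial (eval₂Hom)

local notation "Qb" => AlgebraicClosure ℚ

variable {n : ℕ}

/-- The integral points of the box of side `N`. -/
def intBox (n N : ℕ) : Finset (Fin n → ℤ) :=
  Fintype.piFinset fun _ => Finset.Icc (-(N : ℤ)) N

theorem mem_intBox {N : ℕ} {x : Fin n → ℤ} : x ∈ intBox n N ↔ ∀ i, |x i| ≤ (N : ℤ) := by
  simp [intBox, Fintype.mem_piFinset, abs_le]

theorem card_intBox (n N : ℕ) : (intBox n N).card = (2 * N + 1) ^ n := by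
  have : ∀ _i : Fin n, (Finset.Icc (-(N : ℤ)) N).card = 2 * N + 1 := fun _ => by
    rw [Int.card_Icc]; omega
  rw [intBox, Fintype.card_piFinset, Finset.prod_congr rfl fun i _ => this i, Finset.prod_const,
    Finset.card_univ, Fintype.card_fin]

/-- `S` has `O (N ^ (n - 1/2) log N)` points in the box of side `N`. -/
def SmallSet (S : Set (Fin n → ℤ)) : Prop :=
  ∃ C : ℝ, ∀ N : ℕ, 2 ≤ N →
    (Nat.card {x : Fin n → ℤ // (∀ i, |x i| ≤ (N : ℤ)) ∧ x ∈ S} : ℝ) ≤
      C * (N : ℝ) ^ n / Real.sqrt N * Real.log N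

theorem natCard_box_mem_eq (S : Set (Fin n → ℤ)) (N : ℕ) [DecidablePred (· ∈ S)] :
    Nat.card {x : Fin n → ℤ // (∀ i, |x i| ≤ (N : ℤ)) ∧ x ∈ S} =
      ((intBox n N).filter (· ∈ S)).card := by
  rw [← Nat.card_eq_finsetCard]
  exact Nat.card_congr (Equiv.subtypeEquivRight fun x => by rw [Finset.mem_filter, mem_intBox])

theorem SmallSet.mono {S T : Set (Fin n → ℤ)} (h : SmallSet T) (hST : S ⊆ T) : SmallSet S := by
  classical
  obtain ⟨C, hC⟩ := h
  refine ⟨C, fun N hN => le_trans (Nat.cast_le.2 ?_) (hC N hN)⟩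
  rw [natCard_box_mem_eq, natCard_box_mem_eq]
  exact Finset.card_le_card (Finset.monotone_filter_right _ fun x _ hx => hST hx)

theorem SmallSet.empty : SmallSet (∅ : Set (Fin n → ℤ)) :=
  ⟨0, fun N _ => by simp⟩

theorem SmallSet.union {S T : Set (Fin n → ℤ)} (hS : SmallSet S) (hT : SmallSet T) :
    SmallSet (S ∪ T) := by
  classical
  obtain ⟨C, hC⟩ := hS
  obtain ⟨D, hD⟩ := hT
  refine ⟨C + D, fun N hN => le_trans ?_ ((add_le_add (hC N hN) (hD N hN)).trans (le_of_eq (by ring)))⟩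
  rw [← Nat.cast_add, natCard_box_mem_eq, natCard_box_mem_eq, natCard_box_mem_eq]
  refine Nat.cast_le.2 (le_trans (Finset.card_le_card fun x hx => ?_) (Finset.card_union_le _ _))
  rw [Finset.mem_filter] at hx
  rw [Finset.mem_union, Finset.mem_filter, Finset.mem_filter]
  exact hx.2.imp (fun h => ⟨hx.1, h⟩) fun h => ⟨hx.1, h⟩

theorem SmallSet.biUnion {ι : Type*} (s : Finset ι) {S : ι → Set (Fin n → ℤ)}
    (h : ∀ i ∈ s, SmallSet (S i)) : SmallSet {x | ∃ i ∈ s, x ∈ S i} := by
  classical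
  induction s using Finset.induction_on with
  | empty => exact SmallSet.empty.mono fun x ⟨i, hi, _⟩ => absurd hi (Finset.notMem_empty i)
  | insert a s _ ih =>
    refine ((h a (Finset.mem_insert_self a s)).union
      (ih fun i hi => h i (Finset.mem_insert_of_mem hi))).mono ?_
    rintro x ⟨i, hi, hx⟩
    rcases Finset.mem_insert.1 hi with rfl | hi
    · exact Or.inl hx
    · exact Or.inr ⟨i, hi, hx⟩

theorem log_two_le {N : ℕ} (hN : 2 ≤ N) : Real.log 2 ≤ Real.log N :=
  Real.log_le_log two_pos (by exact_mod_cast hN)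

/-- **A hypersurface has few integral points.** -/
theorem smallSet_zeros {K : Type*} [Field K] [CharZero K] {R : MvPolynomial (Fin n) K}
    (hR : R ≠ 0) : SmallSet {x | MvPolynomial.eval (fun i => (x i : K)) R = 0} := by
  classical
  refine ⟨(R.totalDegree : ℝ) * 3 ^ n / Real.log 2, fun N hN => ?_⟩
  rw [natCard_box_mem_eq]
  obtain ⟨T, hT⟩ : ∃ T : Finset K, T = (Finset.Icc (-(N : ℤ)) N).image (Int.cast : ℤ → K) := ⟨_, rfl⟩
  have hTcard : T.card = 2 * N + 1 := by
    rw [hT, Finset.card_image_of_injective _ Int.cast_injective, Int.card_Icc]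
    omega
  have h := MvPolynomial.schwartz_zippel_totalDegree hR T
  rw [hTcard, div_le_div_iff₀ (pow_pos (by exact_mod_cast Nat.succ_pos (2 * N)) n)
    (by exact_mod_cast Nat.succ_pos (2 * N))] at h
  have h' : ((intBox n N).filter fun x => MvPolynomial.eval (fun i => (x i : K)) R = 0).card *
      (2 * N + 1) ≤ R.totalDegree * (2 * N + 1) ^ n := by
    refine le_trans (Nat.mul_le_mul_right _ ?_) (by exact_mod_cast h)
    refine Finset.card_le_card_of_injOn (fun x i => (x i : K)) (fun x hx => ?_)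
      fun x _ y _ e => funext fun i => Int.cast_injective (congrFun e i)
    rw [Finset.mem_coe, Finset.mem_filter] at hx ⊢
    exact ⟨Fintype.mem_piFinset.2 fun i => hT ▸ Finset.mem_image_of_mem _
      (Fintype.mem_piFinset.1 hx.1 i), hx.2⟩
  obtain ⟨k, hk⟩ : ∃ k, k =
      ((intBox n N).filter fun x => MvPolynomial.eval (fun i => (x i : K)) R = 0).card := ⟨_, rfl⟩
  rw [← hk] at h'
  show (((intBox n N).filter fun x => MvPolynomial.eval (fun i => (x i : K)) R = 0).card : ℝ) ≤ _
  rw [← hk]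
  have h'' : (k : ℝ) * (2 * N + 1) ≤ R.totalDegree * ((2 : ℝ) * N + 1) ^ n := by exact_mod_cast h'
  have hN' : (2 : ℝ) ≤ N := by exact_mod_cast hN
  have hs : Real.sqrt N ≤ 2 * (N : ℝ) + 1 :=
    (Real.sqrt_le_left (by linarith)).2 (by nlinarith)
  have hs0 : 0 < Real.sqrt N := Real.sqrt_pos.2 (by linarith)
  have h3 : (k : ℝ) * Real.sqrt N ≤ R.totalDegree * (3 ^ n * (N : ℝ) ^ n) := by
    refine le_trans (mul_le_mul_of_nonneg_left hs (Nat.cast_nonneg k)) (h''.trans ?_)
    rw [← mul_pow]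
    exact mul_le_mul_of_nonneg_left (pow_le_pow_left₀ (by linarith) (by linarith) n)
      (Nat.cast_nonneg _)
  have hl2 : 0 < Real.log 2 := Real.log_pos one_lt_two
  refine le_trans ?_ (mul_le_mul_of_nonneg_left (log_two_le hN) (by positivity))
  rw [div_mul_eq_mul_div, div_mul_eq_mul_div, div_mul_cancel₀ _ hl2.ne', le_div_iff₀ hs0]
  linarith

/-- The points of the box over which `g` has an integral root. -/
def rootSetInt (g : (MvPolynomial (Fin n) ℤ)[X]) : Set (Fin n → ℤ) :=
  {x | ∃ y : ℤ, (spec g x).eval y = 0}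

theorem spec_map (g : (MvPolynomial (Fin n) ℤ)[X]) {R S : Type*} [CommRing R] [CommRing S]
    (φ : R →+* S) (x : Fin n → R) : (spec g x).map φ = spec g (φ ∘ x) := by
  rw [spec, spec, Polynomial.map_map]
  exact congrArg (fun ψ => g.map ψ) (MvPolynomial.ringHom_ext (fun r => by simp) fun i => by simp)

/-- **The absolutely irreducible case.** -/
theorem smallSet_roots_of_irreducible {g : (MvPolynomial (Fin n) ℤ)[X]} {m : ℕ} (hm : g.Monic)
    (hdeg : g.natDegree = m) (h2 : 2 ≤ m)
    (hirr : Irreducible (g.map (MvPolynomial.map (Int.castRingHom Qb)))) :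
    SmallSet (rootSetInt g) := by
  classical
  obtain ⟨c, κ, hc, hκ, hev⟩ := exists_few_fibres hm hdeg h2 hirr
  obtain ⟨Q₀, hQ₀⟩ := Filter.eventually_atTop.1 hev
  obtain ⟨N₁, hN₁⟩ : ∃ N₁, N₁ = (Q₀ + 2) ^ 2 := ⟨_, rfl⟩
  refine ⟨2 * n * 6 ^ n / (c * κ) + 3 ^ n * Real.sqrt N₁ / Real.log 2, fun N hN => ?_⟩
  rw [natCard_box_mem_eq]
  obtain ⟨S, hS⟩ : ∃ S, S = (intBox n N).filter (· ∈ rootSetInt g) := ⟨_, rfl⟩
  rw [← hS]
  have hN' : (2 : ℝ) ≤ N := by exact_mod_cast hN
  have hl2 : 0 < Real.log 2 := Real.log_pos one_lt_two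
  have hlN := log_two_le hN
  have hs0 : 0 < Real.sqrt N := Real.sqrt_pos.2 (by linarith)
  have hA : 0 ≤ (N : ℝ) ^ n / Real.sqrt N := by positivity
  rw [mul_div_assoc, add_mul, add_mul]
  rcases lt_or_ge N N₁ with hlt | hge
  · refine le_trans ?_ (le_add_of_nonneg_left (by positivity))
    have h1 : (S.card : ℝ) ≤ (2 * (N : ℝ) + 1) ^ n := by
      have := (hS ▸ Finset.card_filter_le _ _ : S.card ≤ (intBox n N).card)
      rw [card_intBox] at this
      exact_mod_cast this
    have h3 : (2 * (N : ℝ) + 1) ^ n ≤ 3 ^ n * (N : ℝ) ^ n := by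
      rw [← mul_pow]; exact pow_le_pow_left₀ (by linarith) (by linarith) n
    have h4 : Real.sqrt N ≤ Real.sqrt N₁ := Real.sqrt_le_sqrt (by exact_mod_cast hlt.le)
    have h5 : (3 : ℝ) ^ n * (N : ℝ) ^ n ≤
        3 ^ n * Real.sqrt N₁ / Real.log 2 * ((N : ℝ) ^ n / Real.sqrt N) * Real.log 2 := by
      rw [div_mul_eq_mul_div, div_mul_cancel₀ _ hl2.ne', mul_div_assoc', le_div_iff₀ hs0]
      nlinarith [mul_le_mul_of_nonneg_left h4 (by positivity : (0 : ℝ) ≤ 3 ^ n * (N : ℝ) ^ n)]
    exact h1.trans (h3.trans (h5.trans (mul_le_mul_of_nonneg_left hlN (by positivity))))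
  · refine le_trans ?_ (le_add_of_nonneg_right (by positivity))
    obtain ⟨L, hL⟩ : ∃ L, L = 2 * N + 1 := ⟨_, rfl⟩
    obtain ⟨Q, hQ⟩ : ∃ Q, Q = Nat.sqrt L := ⟨_, rfl⟩
    have hQL : Q * Q ≤ L := hQ ▸ Nat.sqrt_le L
    have hQL' : L < (Q + 1) * (Q + 1) := hQ ▸ Nat.lt_succ_sqrt L
    have hQ2 : Q₀ + 2 ≤ Q := by
      rw [hQ, Nat.le_sqrt, ← sq]
      rw [hN₁] at hge
      omega
    obtain ⟨P, hP, hPcard, hPclass⟩ := hQ₀ Q (by omega)
    obtain ⟨sh, hsh⟩ : ∃ sh : (Fin n → ℤ) → Fin n → ℕ,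
        ∀ x i, sh x i = (x i + N + 1).toNat := ⟨_, fun _ _ => rfl⟩
    have hbox : ∀ x ∈ S, ∀ i, -(N : ℤ) ≤ x i ∧ x i ≤ N := fun x hx i => by
      rw [hS, Finset.mem_filter, mem_intBox] at hx
      exact abs_le.1 (hx.1 i)
    have hinj : Set.InjOn sh S := fun x hx y hy e => funext fun i => by
      have h1 := congrFun e i
      rw [hsh, hsh] at h1
      have := hbox x hx i
      have := hbox y hy i
      omega
    have hsub : S.image sh ⊆ natBox n L := Finset.image_subset_iff.2 fun x hx =>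
      mem_natBox.2 fun i => by
        have := hbox x hx i
        rw [Finset.mem_Ioc, hsh]
        omega
    have hclass : ∀ p ∈ P, (((S.image sh).image fun y i => y i % p).card : ℝ) ≤
        (1 - c) * (p : ℝ) ^ n := by
      intro p hp
      haveI := Fact.mk (hP p hp).1
      refine le_trans (Nat.cast_le.2 ?_) (hPclass p hp)
      rw [Nat.card_eq_fintype_card, Fintype.card_subtype, Finset.image_image]
      refine Finset.card_le_card_of_injOn (fun h i => (h i : ZMod p) - ((N : ZMod p) + 1))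
        (fun h hh => ?_) fun h hh h' hh' e => funext fun i => ?_
      · rw [Finset.mem_coe, Finset.mem_image] at hh
        obtain ⟨x, hx, rfl⟩ := hh
        have heq : (fun i => ((((fun y i => y i % p) ∘ sh) x i : ℕ) : ZMod p) - ((N : ZMod p) + 1)) =
            Int.castRingHom (ZMod p) ∘ x := funext fun i => by
          have := hbox x hx i
          simp only [Function.comp_apply, ZMod.natCast_mod, hsh, eq_intCast]
          rw [← Int.cast_natCast (x i + N + 1).toNat, Int.toNat_of_nonneg (by omega)]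
          push_cast
          ring
        rw [Finset.mem_coe, Finset.mem_filter]
        beta_reduce
        rw [heq, ← spec_map]
        obtain ⟨y, hy⟩ := (Finset.mem_filter.1 (hS ▸ hx)).2
        refine ⟨Finset.mem_univ _, (y : ZMod p), ?_⟩
        rw [eval_map, ← eq_intCast (Int.castRingHom (ZMod p)), eval₂_at_apply, hy, map_zero]
      · rw [Finset.mem_coe, Finset.mem_image] at hh hh'
        obtain ⟨x, -, rfl⟩ := hh
        obtain ⟨x', -, rfl⟩ := hh'
        have h1 := congrFun e i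
        rw [sub_left_inj, ZMod.natCast_eq_natCast_iff'] at h1
        simpa using h1
    have h := card_mul_le_of_missing P hP (S.image sh) hsub hclass
    rw [Finset.card_image_of_injOn hinj] at h
    have hL' : (L : ℝ) ≤ 3 * N := by
      rw [hL]; push_cast; linarith
    have hQLr : (Q : ℝ) * Q ≤ L := by exact_mod_cast hQL
    have hQr : (2 : ℝ) ≤ Q := by exact_mod_cast (by omega : 2 ≤ Q)
    have hbound : (n : ℝ) * ((L : ℝ) + Q) ^ (n - 1) * ((L : ℝ) + Q * Q) ≤
        n * (6 ^ n * (N : ℝ) ^ n) := by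
      rcases Nat.eq_zero_or_pos n with rfl | hn
      · simp
      rw [mul_assoc]
      refine mul_le_mul_of_nonneg_left ?_ (Nat.cast_nonneg n)
      rw [← mul_pow, show (6 * (N : ℝ)) ^ n = (6 * (N : ℝ)) ^ (n - 1) * (6 * N) by
        rw [← pow_succ, Nat.sub_add_cancel hn]]
      exact mul_le_mul (pow_le_pow_left₀ (by positivity) (by nlinarith) _) (by linarith)
        (by positivity) (by positivity)
    have hQN : Q ≤ N := by
      by_contra hlt
      push Not at hlt
      rw [hL] at hQL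
      nlinarith [Nat.mul_le_mul hlt hlt]
    have hlogQ : Real.log Q ≤ Real.log N :=
      Real.log_le_log (by linarith) (by exact_mod_cast hQN)
    have hlQ : 0 < Real.log Q := Real.log_pos (by linarith)
    have hsQ : Real.sqrt N ≤ 2 * Q := by
      rw [Real.sqrt_le_left (by linarith)]
      have : (L : ℝ) ≤ ((Q : ℝ) + 1) * ((Q : ℝ) + 1) := by exact_mod_cast hQL'.le
      have : (N : ℝ) ≤ L := by rw [hL]; push_cast; linarith
      nlinarith
    have hP' : κ * Real.sqrt N ≤ 2 * Real.log N * P.card := by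
      rw [mul_div_assoc', div_le_iff₀ hlQ] at hPcard
      nlinarith [mul_le_mul_of_nonneg_left hsQ hκ.le,
        mul_le_mul_of_nonneg_left hlogQ (Nat.cast_nonneg (α := ℝ) P.card)]
    rw [div_mul_eq_mul_div, div_mul_eq_mul_div, le_div_iff₀ (mul_pos hc hκ), mul_div_assoc',
      div_mul_eq_mul_div, le_div_iff₀ hs0]
    nlinarith [mul_le_mul_of_nonneg_left (h.trans hbound) (by positivity : (0 : ℝ) ≤ 2 * Real.log N),
      mul_le_mul_of_nonneg_left hP' (mul_nonneg hc.le (Nat.cast_nonneg (α := ℝ) S.card))]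

theorem exists_map_ne {q : Qb} (h : q ∉ Set.range (algebraMap ℚ Qb)) :
    ∃ σ : Qb ≃ₐ[ℚ] Qb, σ q ≠ q := by
  haveI : IsGalois ℚ Qb := ⟨⟩
  by_contra hno
  push Not at hno
  exact h (IntermediateField.mem_bot.1 ((InfiniteGalois.mem_bot_iff_fixed q).2 hno))

/-- An irreducible factor over `ℚ̄` of a polynomial irreducible over `ℚ` has a conjugate prime to
it, unless it is everything. -/
theorem exists_resultant_conj {G : (MvPolynomial (Fin n) ℚ)[X]} (hGm : G.Monic)
    (hG : Irreducible G)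
    (hGA : ¬Irreducible (G.map (MvPolynomial.map (algebraMap ℚ Qb))))
    {q : (MvPolynomial (Fin n) Qb)[X]} (hq : Irreducible q)
    (hdvd : q ∣ G.map (MvPolynomial.map (algebraMap ℚ Qb))) :
    ∃ R : MvPolynomial (Fin n) Qb, R ≠ 0 ∧ ∀ x : Fin n → ℤ, ∀ y : ℤ,
      (q.map (MvPolynomial.eval fun i => (x i : Qb))).eval (y : Qb) = 0 →
        MvPolynomial.eval (fun i => (x i : Qb)) R = 0 := by
  classical
  obtain ⟨GA, hGA'⟩ : ∃ GA, GA = G.map (MvPolynomial.map (algebraMap ℚ Qb)) := ⟨_, rfl⟩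
  rw [← hGA'] at hGA hdvd
  have hGAm : GA.Monic := hGA' ▸ hGm.map _
  obtain ⟨c, hc⟩ := hdvd
  have hlc : IsUnit q.leadingCoeff := isUnit_of_dvd_one (by
    rw [← hGAm.leadingCoeff, hc, leadingCoeff_mul]
    exact dvd_mul_right _ _)
  obtain ⟨u, hu⟩ := hlc
  obtain ⟨h, hh⟩ : ∃ h, h = C (↑u⁻¹ : MvPolynomial (Fin n) Qb) * q := ⟨_, rfl⟩
  have hhm : h.Monic := by
    rw [Monic, hh, leadingCoeff_mul, leadingCoeff_C, ← hu, Units.inv_mul]
  have hhirr : Irreducible h := hh ▸ (irreducible_isUnit_mul (u⁻¹.isUnit.map C)).2 hq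
  have hhdvd : h ∣ GA := hh ▸ ((u⁻¹.isUnit.map C).mul_left_dvd).2 ⟨c, hc⟩
  have hirrat : ∃ i s, (h.coeff i).coeff s ∉ Set.range (algebraMap ℚ Qb) := by
    by_contra hno
    push Not at hno
    have hl : h ∈ lifts (MvPolynomial.map (algebraMap ℚ Qb)) := (lifts_iff_coeff_lifts _).2 fun i => by
      choose a ha using hno i
      exact ⟨∑ s ∈ (h.coeff i).support, MvPolynomial.monomial s (a s), by
        simp [map_sum, MvPolynomial.map_monomial, ha, ← MvPolynomial.as_sum (h.coeff i)]⟩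
    obtain ⟨h₀, hh₀, -, hh₀m⟩ := lifts_and_degree_eq_and_monic hl hhm
    have hinj := MvPolynomial.map_injective (σ := Fin n) (algebraMap ℚ Qb) (algebraMap ℚ Qb).injective
    have hd : h₀ ∣ G := (map_dvd_map _ hinj hh₀m).1 (by rw [hh₀, ← hGA']; exact hhdvd)
    have h0u : ¬IsUnit h₀ := fun hu' => hhirr.not_isUnit (hh₀ ▸ hu'.map (mapRingHom _))
    rw [eq_of_monic_of_associated hh₀m hGm ((hG.dvd_iff.1 hd).resolve_left h0u).symm, ← hGA'] at hh₀
    exact hGA (hh₀ ▸ hhirr)
  obtain ⟨i, s, his⟩ := hirrat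
  obtain ⟨σ, hσ⟩ := exists_map_ne his
  obtain ⟨hσh, hhσ⟩ : ∃ hσh, hσh = h.map (MvPolynomial.map σ.toRingEquiv.toRingHom) := ⟨_, rfl⟩
  have hσm : hσh.Monic := hhσ ▸ hhm.map _
  have hσirr : Irreducible hσh := by
    have := (MulEquiv.irreducible_iff
      (Polynomial.mapEquiv (MvPolynomial.mapEquiv (Fin n) σ.toRingEquiv))).2 hhirr
    rw [hhσ]
    exact this
  have hne : ¬h ∣ hσh := fun hd => by
    have e := eq_of_monic_of_associated hhm hσm (hhirr.associated_of_dvd hσirr hd)
    have := congrArg (fun P => (P.coeff i).coeff s) e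
    simp only [hhσ, coeff_map, MvPolynomial.coeff_map] at this
    exact hσ this.symm
  obtain ⟨K, _, _, _, -⟩ : ∃ (K : Type) (_ : Field K) (_ : Algebra (MvPolynomial (Fin n) Qb) K)
      (_ : IsFractionRing (MvPolynomial (Fin n) Qb) K), True :=
    ⟨FractionRing (MvPolynomial (Fin n) Qb), inferInstance, inferInstance, inferInstance, trivial⟩
  have hinj := IsFractionRing.injective (MvPolynomial (Fin n) Qb) K
  have hres := resultant_ne_zero _ _
    (((hhm.irreducible_iff_irreducible_map_fraction_map (K := K)).1 hhirr).coprime_iff_not_dvd.2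
      fun hd => hne ((map_dvd_map _ hinj hhm).1 hd) : IsCoprime _ (hσh.map _))
  rw [resultant_map_map, natDegree_map_eq_of_injective hinj, natDegree_map_eq_of_injective hinj]
    at hres
  have hd0 : h.natDegree ≠ 0 := fun e => hhirr.not_isUnit
    (by rw [eq_one_of_monic_natDegree_zero hhm e]; exact isUnit_one)
  obtain ⟨A, B, -, -, hAB⟩ := exists_mul_add_mul_eq_C_resultant h hσh le_rfl le_rfl (Or.inl hd0)
  refine ⟨resultant h hσh, fun e => hres (by rw [e, map_zero]), fun x y hxy => ?_⟩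
  obtain ⟨ev, hev⟩ : ∃ ev : (MvPolynomial (Fin n) Qb) →+* Qb,
      ev = MvPolynomial.eval fun i => (x i : Qb) := ⟨_, rfl⟩
  rw [← hev] at hxy ⊢
  have h1 : eval₂ ev (y : Qb) h = 0 := by
    rw [hh, eval₂_mul, ← eval_map (p := q), hxy, mul_zero]
  have h2 : eval₂ ev (y : Qb) hσh = 0 := by
    have h3 := congrArg σ.toRingEquiv.toRingHom h1
    rw [map_zero, hom_eval₂, show σ.toRingEquiv.toRingHom (y : Qb) = (y : Qb) from map_intCast σ y,
      show σ.toRingEquiv.toRingHom.comp ev = ev.comp (MvPolynomial.map σ.toRingEquiv.toRingHom) from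
        MvPolynomial.ringHom_ext (fun a => by simp [hev]) fun i => by simp [hev]] at h3
    rwa [hhσ, eval₂_map]
  have h4 := congrArg (eval₂ ev (y : Qb)) hAB
  rw [eval₂_add, eval₂_mul, eval₂_mul, h1, h2, eval₂_C, zero_mul, zero_mul, add_zero] at h4
  exact h4.symm

theorem smallSet_roots_of_not_irreducible {g : (MvPolynomial (Fin n) ℤ)[X]} (hm : g.Monic)
    (hirr : Irreducible (g.map (MvPolynomial.map (Int.castRingHom ℚ))))
    (hnot : ¬Irreducible (g.map (MvPolynomial.map (Int.castRingHom Qb)))) :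
    SmallSet (rootSetInt g) := by
  classical
  obtain ⟨G, hG⟩ : ∃ G, G = g.map (MvPolynomial.map (Int.castRingHom ℚ)) := ⟨_, rfl⟩
  have hGA : G.map (MvPolynomial.map (algebraMap ℚ Qb)) =
      g.map (MvPolynomial.map (Int.castRingHom Qb)) := by
    rw [hG, Polynomial.map_map]
    exact congrArg (fun φ => g.map φ) (MvPolynomial.ringHom_ext (fun r => by simp) fun i => by simp)
  have hne : G.map (MvPolynomial.map (algebraMap ℚ Qb)) ≠ 0 := ((hG ▸ hm.map _ : G.Monic).map _).ne_zero
  obtain ⟨f, hf, hassoc⟩ := WfDvdMonoid.exists_factors _ hne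
  have hres : ∀ q ∈ f.toFinset, ∃ R : MvPolynomial (Fin n) Qb, R ≠ 0 ∧ ∀ x : Fin n → ℤ, ∀ y : ℤ,
      (q.map (MvPolynomial.eval fun i => (x i : Qb))).eval (y : Qb) = 0 →
        MvPolynomial.eval (fun i => (x i : Qb)) R = 0 := fun q hq =>
    exists_resultant_conj (hG ▸ hm.map _) (hG ▸ hirr) (hGA ▸ hnot) (hf q (Multiset.mem_toFinset.1 hq))
      ((Multiset.dvd_prod (Multiset.mem_toFinset.1 hq)).trans hassoc.dvd)
  choose! R hR0 hR using hres
  refine (SmallSet.biUnion f.toFinset fun q hq => smallSet_zeros (hR0 q hq)).mono ?_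
  rintro x ⟨y, hy⟩
  obtain ⟨ev, hev⟩ : ∃ ev : (MvPolynomial (Fin n) Qb) →+* Qb,
      ev = MvPolynomial.eval fun i => (x i : Qb) := ⟨_, rfl⟩
  have h0 : ((G.map (MvPolynomial.map (algebraMap ℚ Qb))).map ev).eval (y : Qb) = 0 := by
    rw [hGA, Polynomial.map_map, show ev.comp (MvPolynomial.map (Int.castRingHom Qb)) =
      (Int.castRingHom Qb).comp (eval₂Hom (Int.castRingHom ℤ) x) from
      MvPolynomial.ringHom_ext (fun r => by simp [hev]) fun i => by simp [hev],
      ← Polynomial.map_map, eval_map, ← eq_intCast (Int.castRingHom Qb), eval₂_at_apply]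
    show Int.castRingHom Qb ((spec g x).eval y) = 0
    rw [hy, map_zero]
  obtain ⟨w, hw⟩ := hassoc
  rw [← hw, Polynomial.map_mul, eval_mul, mul_eq_zero] at h0
  have hunit : ((w : (MvPolynomial (Fin n) Qb)[X]).map ev).eval (y : Qb) ≠ 0 :=
    (((Units.isUnit w).map (mapRingHom ev)).map (evalRingHom (y : Qb))).ne_zero
  have h5 := h0.resolve_right hunit
  rw [Polynomial.map_multiset_prod, eval_multiset_prod, Multiset.map_map,
    Multiset.prod_eq_zero_iff, Multiset.mem_map] at h5
  obtain ⟨q, hq, hqe⟩ := h5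
  exact ⟨q, Multiset.mem_toFinset.2 hq, hR q (Multiset.mem_toFinset.2 hq) x y (hev ▸ hqe)⟩

/-- The points over which `f` has a rational root. -/
def ratRootSet (f : (MvPolynomial (Fin n) ℤ)[X]) : Set (Fin n → ℤ) :=
  {x | ∃ y : ℚ, (spec f fun i => (x i : ℚ)).eval y = 0}

theorem exists_monic (k : Type) [Field k] [CharZero k] {f : (MvPolynomial (Fin n) ℤ)[X]}
    (hd : f.natDegree ≠ 0)
    (hirr : Irreducible (f.map (MvPolynomial.map (Int.castRingHom k)))) :
    f.integralNormalization.Monic ∧ f.integralNormalization.natDegree = f.natDegree ∧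
      Irreducible (f.integralNormalization.map (MvPolynomial.map (Int.castRingHom k))) := by
  have hf0 : f ≠ 0 := fun e => hd (by rw [e, natDegree_zero])
  have hgm := monic_integralNormalization hf0
  refine ⟨hgm, natDegree_eq_of_degree_eq degree_integralNormalization, ?_⟩
  obtain ⟨K, _, _, _, -⟩ : ∃ (K : Type) (_ : Field K) (_ : Algebra (MvPolynomial (Fin n) k) K)
      (_ : IsFractionRing (MvPolynomial (Fin n) k) K), True :=
    ⟨FractionRing (MvPolynomial (Fin n) k), inferInstance, inferInstance, inferInstance, trivial⟩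
  have hinj : Function.Injective ((algebraMap (MvPolynomial (Fin n) k) K).comp
      (MvPolynomial.map (Int.castRingHom k))) :=
    (IsFractionRing.injective (MvPolynomial (Fin n) k) K).comp
      (MvPolynomial.map_injective _ Int.cast_injective)
  have hd' : (f.map (MvPolynomial.map (Int.castRingHom k))).natDegree ≠ 0 := by
    rwa [natDegree_map_eq_of_injective (MvPolynomial.map_injective _ Int.cast_injective)]
  have h1 := ((hirr.isPrimitive hd').irreducible_iff_irreducible_map_fraction_map (K := K)).1 hirr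
  rw [Polynomial.map_map] at h1
  have h2 := (Fermat.Agent.Hilbertian.irreducible_map_integralNormalization_iff _ f
    ((map_ne_zero_iff _ hinj).2 (leadingCoeff_ne_zero.2 hf0))).2 h1
  rw [← Polynomial.map_map] at h2
  exact ((hgm.map _).irreducible_iff_irreducible_map_fraction_map (K := K)).2 h2

/-- **Cohen's theorem**: few integral points have a rational root above them. -/
theorem smallSet_ratRootSet {f : (MvPolynomial (Fin n) ℤ)[X]} (h2 : 2 ≤ f.natDegree)
    (hirr : Irreducible (f.map (MvPolynomial.map (Int.castRingHom ℚ)))) :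
    SmallSet (ratRootSet f) := by
  classical
  obtain ⟨hgm, hgd, hgirr⟩ := exists_monic ℚ (by omega) hirr
  have hf0 : f ≠ 0 := fun e => by rw [e, natDegree_zero] at h2; omega
  obtain ⟨g, hg⟩ : ∃ g, g = f.integralNormalization := ⟨_, rfl⟩
  rw [← hg] at hgm hgd hgirr
  have hsmall : SmallSet (rootSetInt g) := by
    by_cases habs : Irreducible (g.map (MvPolynomial.map (Int.castRingHom Qb)))
    · exact smallSet_roots_of_irreducible hgm hgd h2 habs
    · exact smallSet_roots_of_not_irreducible hgm hgirr habs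
  refine (hsmall.union (smallSet_zeros (K := ℚ) (R := f.leadingCoeff.map (Int.castRingHom ℚ))
    fun e => leadingCoeff_ne_zero.2 hf0 (MvPolynomial.map_injective _ Int.cast_injective
      (e.trans (map_zero _).symm)))).mono ?_
  rintro x ⟨y, hy⟩
  by_cases hl : MvPolynomial.eval (fun i => (x i : ℚ)) (f.leadingCoeff.map (Int.castRingHom ℚ)) = 0
  · exact Or.inr hl
  refine Or.inl ?_
  obtain ⟨φ, hφ⟩ : ∃ φ, φ = eval₂Hom (Int.castRingHom ℚ) fun i => (x i : ℚ) := ⟨_, rfl⟩
  have hl' : φ f.leadingCoeff ≠ 0 := by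
    rw [hφ]; rwa [MvPolynomial.eval_map] at hl
  rw [spec, ← hφ, eval_map] at hy
  have h3 := scaleRoots_eval₂_eq_zero φ (s := f.leadingCoeff) hy
  rw [← integralNormalization_mul_C_leadingCoeff, eval₂_mul, eval₂_C, mul_eq_zero,
    or_iff_left hl', ← hg] at h3
  obtain ⟨z, hz⟩ : ∃ z : ℤ, algebraMap ℤ ℚ z = φ f.leadingCoeff * y := by
    refine IsIntegrallyClosed.isIntegral_iff.1 ⟨spec g x, hgm.map _, ?_⟩
    rw [spec, eval₂_map, ← h3]
    exact congrArg (fun ψ => eval₂ ψ (φ f.leadingCoeff * y) g)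
      (MvPolynomial.ringHom_ext (fun r => by simp [hφ]) fun i => by simp [hφ])
  refine ⟨z, ?_⟩
  apply (Int.castRingHom ℚ).injective_int
  rw [map_zero, ← eval₂_at_apply, spec, eval₂_map, ← h3]
  rw [← hz, algebraMap_int_eq]
  exact congrArg (fun ψ => eval₂ ψ _ g)
    (MvPolynomial.ringHom_ext (fun r => by simp [hφ]) fun i => by simp [hφ])

end FA.ThinSets

end
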