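import Fermat.Agent.MeanValue.LargeSieve

/-!
# The large sieve for boxes

For weights on `(0, L] ^ n` the variance over the classes modulo the primes up to `Q` is at most
`n (L + Q) ^ (n - 1) (L + Q ^ 2)` times the sum of squares: one coordinate at a time, by the large
sieve on an interval and Plancherel.
-/

set_option autoImplicit false

noncomputable section

namespace FA.ThinSets

open Finset
open FA.ThreePrimes (eAdd arcCentres centre)
open scoped ComplexConjugate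

/-- The sum of the weights in a class modulo `p`. -/
def classSum (L p : ℕ) (w : ℕ → ℝ) (h : ℕ) : ℝ :=
  ∑ m ∈ (Ioc 0 L).filter (fun m => m % p = h), w m

theorem sum_classSum {p : ℕ} (hp : 0 < p) (L : ℕ) (w : ℕ → ℝ) :
    ∑ h ∈ range p, classSum L p w h = ∑ m ∈ Ioc 0 L, w m :=
  sum_fiberwise_of_maps_to (fun m _ => mem_range.2 (Nat.mod_lt m hp)) _

theorem sum_eAdd_div {p : ℕ} (hp : 0 < p) (k : ℤ) :
    ∑ a ∈ range p, eAdd ((k : ℝ) * ((a : ℝ) / p)) = if (p : ℤ) ∣ k then (p : ℂ) else 0 := by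
  have e : ∀ a : ℕ, eAdd ((k : ℝ) * ((a : ℝ) / p)) = eAdd ((k : ℝ) / p) ^ a := fun a => by
    rw [← ThreePrimes.eAdd_nat_mul]
    congr 1
    ring
  simp only [e]
  split_ifs with h
  · obtain ⟨j, rfl⟩ := h
    rw [show (((p : ℤ) * j : ℤ) : ℝ) / p = (j : ℝ) by
      push_cast
      rw [mul_div_cancel_left₀ _ (Nat.cast_ne_zero.2 hp.ne')], ThreePrimes.eAdd_intCast]
    simp
  · have hne : eAdd ((k : ℝ) / p) ≠ 1 := fun h1 => by
      rw [eAdd, Complex.exp_eq_one_iff] at h1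
      obtain ⟨j, hj⟩ := h1
      have h2 := congrArg Complex.im hj
      simp [Complex.mul_im] at h2
      refine h ⟨j, ?_⟩
      have h4 : (k : ℝ) / p = j :=
        mul_left_cancel₀ (mul_ne_zero two_ne_zero Real.pi_pos.ne') (h2.trans (mul_comm _ _))
      rw [div_eq_iff (Nat.cast_ne_zero.2 hp.ne')] at h4
      exact_mod_cast h4.trans (mul_comm _ _)
    rw [geom_sum_eq hne]
    rw [← ThreePrimes.eAdd_nat_mul, mul_div_cancel₀ _ (Nat.cast_ne_zero.2 hp.ne'),
      ThreePrimes.eAdd_intCast]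
    simp

/-- **Plancherel modulo `p`.** -/
theorem sum_norm_sq_eq {p : ℕ} (hp : 0 < p) (L : ℕ) (w : ℕ → ℝ) :
    ∑ a ∈ range p, ‖∑ m ∈ Ioc 0 L, (w m : ℂ) * eAdd ((m : ℝ) * ((a : ℝ) / p))‖ ^ 2 =
      p * ∑ h ∈ range p, classSum L p w h ^ 2 := by
  have key : ∀ a : ℕ,
      ((‖∑ m ∈ Ioc 0 L, (w m : ℂ) * eAdd ((m : ℝ) * ((a : ℝ) / p))‖ ^ 2 : ℝ) : ℂ) =
        ∑ m ∈ Ioc 0 L, ∑ n ∈ Ioc 0 L,
          ((w m * w n : ℝ) : ℂ) * eAdd ((((m : ℤ) - n : ℤ) : ℝ) * ((a : ℝ) / p)) := fun a => by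
    rw [Complex.ofReal_pow, ← Complex.mul_conj', map_sum, sum_mul_sum]
    refine sum_congr rfl fun m _ => sum_congr rfl fun n _ => ?_
    rw [map_mul, Complex.conj_ofReal, ThreePrimes.conj_eAdd,
      show (((m : ℤ) - n : ℤ) : ℝ) * ((a : ℝ) / p) =
        (m : ℝ) * ((a : ℝ) / p) + -((n : ℝ) * ((a : ℝ) / p)) by push_cast; ring,
      ThreePrimes.eAdd_add, Complex.ofReal_mul]
    ring
  have hcl : ∑ h ∈ range p, classSum L p w h ^ 2 =
      ∑ m ∈ Ioc 0 L, w m * classSum L p w (m % p) := by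
    rw [← sum_fiberwise_of_maps_to (g := fun m : ℕ => m % p) (t := range p)
      (fun m _ => mem_range.2 (Nat.mod_lt m hp)) (fun m => w m * classSum L p w (m % p))]
    refine sum_congr rfl fun h _ => ?_
    rw [sum_congr rfl fun m hm => by rw [(mem_filter.1 hm).2], ← sum_mul, sq]
    rfl
  have hC : ((∑ a ∈ range p, ‖∑ m ∈ Ioc 0 L, (w m : ℂ) * eAdd ((m : ℝ) * ((a : ℝ) / p))‖ ^ 2 : ℝ)
      : ℂ) = ((p * ∑ h ∈ range p, classSum L p w h ^ 2 : ℝ) : ℂ) := by
    rw [Complex.ofReal_sum, sum_congr rfl fun a _ => key a, sum_comm, hcl, mul_sum,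
      Complex.ofReal_sum]
    refine sum_congr rfl fun m _ => ?_
    rw [sum_comm, classSum, mul_sum, mul_sum, sum_filter, Complex.ofReal_sum]
    refine sum_congr rfl fun n _ => ?_
    rw [← mul_sum, sum_eAdd_div hp]
    have hiff : ((p : ℤ) ∣ (m : ℤ) - n) ↔ n % p = m % p := by
      rw [← Int.modEq_iff_dvd, Int.natCast_modEq_iff]
      exact Iff.rfl
    by_cases hd : n % p = m % p
    · rw [if_pos (hiff.2 hd), if_pos hd]
      push_cast
      ring
    · rw [if_neg (mt hiff.1 hd), if_neg hd, mul_zero, Complex.ofReal_zero]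
  exact_mod_cast hC

/-- The variance of the weights modulo `p`. -/
def variance (L p : ℕ) (w : ℕ → ℝ) : ℝ :=
  p * ∑ h ∈ range p, (classSum L p w h - (∑ m ∈ Ioc 0 L, w m) / p) ^ 2

theorem variance_eq {p : ℕ} (hp : 0 < p) (L : ℕ) (w : ℕ → ℝ) :
    variance L p w =
      ∑ a ∈ Ioo 0 p, ‖∑ m ∈ Ioc 0 L, (w m : ℂ) * eAdd ((m : ℝ) * ((a : ℝ) / p))‖ ^ 2 := by
  have h1 := sum_norm_sq_eq hp L w
  rw [range_eq_Ico, ← sum_Ioo_add_eq_sum_Ico hp] at h1
  simp only [Nat.cast_zero, zero_div, mul_zero, ThreePrimes.eAdd_zero, mul_one] at h1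
  rw [← Complex.ofReal_sum, Complex.norm_real, Real.norm_eq_abs, sq_abs, ← range_eq_Ico] at h1
  have h2 := sum_classSum hp L w
  rw [variance]
  obtain ⟨Z, hZ⟩ : ∃ Z, Z = ∑ m ∈ Ioc 0 L, w m := ⟨_, rfl⟩
  rw [← hZ] at h1 h2 ⊢
  obtain ⟨T, hT⟩ : ∃ T, T =
      ∑ a ∈ Ioo 0 p, ‖∑ m ∈ Ioc 0 L, (w m : ℂ) * eAdd ((m : ℝ) * ((a : ℝ) / p))‖ ^ 2 := ⟨_, rfl⟩
  rw [← hT] at h1 ⊢
  simp only [sub_sq, sum_add_distrib, sum_sub_distrib, ← sum_mul, ← mul_sum, sum_const, card_range,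
    nsmul_eq_mul, h2]
  have hp' : (p : ℝ) ≠ 0 := Nat.cast_ne_zero.2 hp.ne'
  field_simp
  linarith

/-- **The large sieve on an interval, as a variance.** -/
theorem sum_variance_le {Q L : ℕ} (P : Finset ℕ) (hP : ∀ p ∈ P, p.Prime ∧ p ≤ Q) (w : ℕ → ℝ) :
    ∑ p ∈ P, variance L p w ≤ ((L : ℝ) + Q * Q) * ∑ m ∈ Ioc 0 L, w m ^ 2 := by
  have h := MeanValue.large_sieve_farey Q 0 L fun m => (w m : ℂ)
  simp only [zero_add, Complex.norm_real, Real.norm_eq_abs, sq_abs] at h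
  refine le_trans ?_ h
  rw [sum_congr rfl fun p hp => variance_eq (hP p hp).1.pos L w]
  refine le_of_eq_of_le (sum_sigma P (fun p => Ioo 0 p) fun z : Σ _ : ℕ, ℕ =>
    ‖∑ m ∈ Ioc 0 L, (w m : ℂ) * eAdd ((m : ℝ) * centre z)‖ ^ 2).symm ?_
  refine sum_le_sum_of_subset_of_nonneg (fun z hz => ?_) fun z _ _ => sq_nonneg _
  rw [mem_sigma, mem_Ioo] at hz
  rw [ThreePrimes.mem_arcCentres]
  exact ⟨⟨(hP _ hz.1).1.one_le, (hP _ hz.1).2⟩, hz.2.2,
    ((hP _ hz.1).1.coprime_iff_not_dvd.2 fun hd => absurd (Nat.le_of_dvd hz.2.1 hd)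
      (not_le.2 hz.2.2))⟩

/-! ### Boxes -/

/-- The box `(0, L] ^ n`. -/
def natBox (n L : ℕ) : Finset (Fin n → ℕ) := Fintype.piFinset fun _ => Ioc 0 L

/-- The classes modulo `p`. -/
def classes (n p : ℕ) : Finset (Fin n → ℕ) := Fintype.piFinset fun _ => range p

theorem mem_natBox {n L : ℕ} {x : Fin n → ℕ} : x ∈ natBox n L ↔ ∀ i, x i ∈ Ioc 0 L :=
  Fintype.mem_piFinset

theorem mem_classes {n p : ℕ} {x : Fin n → ℕ} : x ∈ classes n p ↔ ∀ i, x i < p := by
  simp [classes, Fintype.mem_piFinset]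

theorem card_classes (n p : ℕ) : (classes n p).card = p ^ n := by
  simp [classes, Fintype.card_piFinset]

/-- The sum of the weights in a class of the box. -/
def boxClassSum (n L p : ℕ) (a : (Fin n → ℕ) → ℝ) (h : Fin n → ℕ) : ℝ :=
  ∑ x ∈ (natBox n L).filter (fun x => ∀ i, x i % p = h i), a x

/-- The variance in the box. -/
def boxVariance (n L p : ℕ) (a : (Fin n → ℕ) → ℝ) : ℝ :=
  (p : ℝ) ^ n * ∑ h ∈ classes n p,
    (boxClassSum n L p a h - (∑ x ∈ natBox n L, a x) / (p : ℝ) ^ n) ^ 2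

theorem sum_piFinset_cons {n : ℕ} {M : Type*} [AddCommMonoid M] (s : Finset ℕ)
    (F : (Fin (n + 1) → ℕ) → M) :
    ∑ x ∈ Fintype.piFinset (fun _ : Fin (n + 1) => s), F x =
      ∑ x' ∈ Fintype.piFinset (fun _ : Fin n => s), ∑ m ∈ s, F (Fin.cons m x') := by
  rw [← sum_product']
  refine sum_nbij' (fun x => (Fin.tail x, x 0)) (fun q => Fin.cons q.2 q.1) ?_ ?_ ?_ ?_ ?_
  · intro x hx
    rw [mem_product]
    exact ⟨Fintype.mem_piFinset.2 fun i => Fintype.mem_piFinset.1 hx i.succ,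
      Fintype.mem_piFinset.1 hx 0⟩
  · intro q hq
    rw [mem_product] at hq
    exact Fintype.mem_piFinset.2 (Fin.cases hq.2 fun i => Fintype.mem_piFinset.1 hq.1 i)
  · intro x _
    exact Fin.cons_self_tail x
  · intro q _
    simp
  · intro x _
    rw [Fin.cons_self_tail]

theorem card_class_le {n L p : ℕ} (h : Fin n → ℕ) :
    (((natBox n L).filter fun x => ∀ i, x i % p = h i).card : ℝ) ≤ ((L : ℝ) / p + 1) ^ n := by
  rcases Nat.eq_zero_or_pos p with rfl | hp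
  · refine le_trans (Nat.cast_le.2 (card_le_one.2 fun x hx y hy => funext fun i => ?_))
      (le_of_eq (by simp))
    rw [mem_filter] at hx hy
    simpa using (hx.2 i).trans (hy.2 i).symm
  have h1 : ((natBox n L).filter fun x => ∀ i, x i % p = h i) =
      Fintype.piFinset fun i => (Ioc 0 L).filter fun m => m % p = h i := by
    ext x
    simp [natBox, Fintype.mem_piFinset, forall_and]
  rw [h1, Fintype.card_piFinset, Nat.cast_prod]
  refine le_trans (prod_le_prod (fun i _ => Nat.cast_nonneg _) (g := fun _ => (L : ℝ) / p + 1)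
    fun i _ => ?_) (le_of_eq (by rw [prod_const, card_univ, Fintype.card_fin]))
  refine le_trans (Nat.cast_le.2 (card_le_card_of_injOn (t := range (L / p + 1)) (fun m => m / p)
    (fun m hm => ?_) fun x hx y hy e => ?_)) ?_
  · rw [mem_coe, mem_filter, mem_Ioc] at hm
    rw [mem_coe, mem_range, Nat.lt_succ_iff]
    exact Nat.div_le_div_right hm.1.2
  · rw [mem_coe, mem_filter] at hx hy
    rw [← Nat.mod_add_div x p, ← Nat.mod_add_div y p, hx.2, hy.2]
    exact congrArg (fun t => h i + p * t) e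
  · rw [card_range, Nat.cast_add, Nat.cast_one]
    exact add_le_add Nat.cast_div_le le_rfl

theorem boxVariance_cons {n : ℕ} {p : ℕ} (hp : 0 < p) (L : ℕ) (a : (Fin (n + 1) → ℕ) → ℝ) :
    boxVariance (n + 1) L p a ≤
      ((L : ℝ) + p) ^ n * ∑ x' ∈ natBox n L, variance L p (fun m => a (Fin.cons m x')) +
        boxVariance n L p fun x' => ∑ m ∈ Ioc 0 L, a (Fin.cons m x') := by
  obtain ⟨b, hb⟩ : ∃ b : (Fin n → ℕ) → ℝ, ∀ x', b x' = ∑ m ∈ Ioc 0 L, a (Fin.cons m x') :=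
    ⟨_, fun _ => rfl⟩
  rw [← funext hb]
  obtain ⟨Z, hZ⟩ : ∃ Z, Z = ∑ x ∈ natBox (n + 1) L, a x := ⟨_, rfl⟩
  have hZ' : Z = ∑ x' ∈ natBox n L, b x' := by
    rw [hZ, natBox, sum_piFinset_cons]
    exact sum_congr rfl fun x' _ => (hb x').symm
  have hp' : (p : ℝ) ≠ 0 := Nat.cast_ne_zero.2 hp.ne'
  obtain ⟨D, hD⟩ : ∃ D : (Fin n → ℕ) → ℕ → ℝ,
      ∀ x' h, D x' h = classSum L p (fun m => a (Fin.cons m x')) h - b x' / p :=
    ⟨_, fun _ _ => rfl⟩
  have hcl : ∀ h' m, boxClassSum (n + 1) L p a (Fin.cons m h') =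
      ∑ x' ∈ (natBox n L).filter (fun x' => ∀ i, x' i % p = h' i),
        classSum L p (fun t => a (Fin.cons t x')) m := fun h' m => by
    rw [boxClassSum, sum_filter, natBox, sum_piFinset_cons, sum_filter]
    refine sum_congr rfl fun x' _ => ?_
    simp only [Fin.forall_fin_succ, Fin.cons_zero, Fin.cons_succ]
    by_cases hx : ∀ i, x' i % p = h' i
    · rw [if_pos hx, classSum, sum_filter]
      exact sum_congr rfl fun t _ => by simp [hx]
    · rw [if_neg hx]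
      exact sum_eq_zero fun t _ => by simp [hx]
  have hsplit : ∀ h', ∑ m ∈ range p,
      (boxClassSum (n + 1) L p a (Fin.cons m h') - Z / (p : ℝ) ^ (n + 1)) ^ 2 =
        ∑ m ∈ range p, (∑ x' ∈ (natBox n L).filter (fun x' => ∀ i, x' i % p = h' i), D x' m) ^ 2 +
          (p : ℝ)⁻¹ * (boxClassSum n L p b h' - Z / (p : ℝ) ^ n) ^ 2 := fun h' => by
    obtain ⟨B, hB⟩ : ∃ B, B = boxClassSum n L p b h' := ⟨_, rfl⟩
    have h0 : ∀ m, ∑ x' ∈ (natBox n L).filter (fun x' => ∀ i, x' i % p = h' i), D x' m =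
        boxClassSum (n + 1) L p a (Fin.cons m h') - B / p := fun m => by
      rw [hcl, hB, boxClassSum, sum_congr rfl fun x' _ => hD x' m, sum_sub_distrib, ← sum_div]
    have hsum : ∑ m ∈ range p, boxClassSum (n + 1) L p a (Fin.cons m h') = B := by
      rw [sum_congr rfl fun m _ => hcl h' m, hB, boxClassSum, sum_congr rfl fun x' _ => hb x']
      rw [sum_comm]
      exact sum_congr rfl fun x' _ => sum_classSum hp L _
    simp only [h0, sub_sq, sum_add_distrib, sum_sub_distrib, ← sum_mul, ← mul_sum, sum_const,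
      card_range, nsmul_eq_mul, hsum, ← hB]
    field_simp
    ring
  rw [boxVariance, boxVariance, ← hZ, ← hZ', classes, sum_piFinset_cons]
  simp only [hsplit, sum_add_distrib, ← mul_sum]
  rw [mul_add, ← mul_assoc, pow_succ, mul_inv_cancel_right₀ hp']
  refine add_le_add ?_ le_rfl
  obtain ⟨V, hV⟩ : ∃ V : (Fin n → ℕ) → ℝ, ∀ x', V x' = ∑ m ∈ range p, D x' m ^ 2 :=
    ⟨_, fun _ => rfl⟩
  have hv : ∀ x', variance L p (fun m => a (Fin.cons m x')) = (p : ℝ) * V x' := fun x' => by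
    rw [variance, hV]
    simp only [hD, hb]
  have hfib : ∑ h' ∈ classes n p,
      ∑ x' ∈ (natBox n L).filter (fun x' => ∀ i, x' i % p = h' i), V x' =
        ∑ x' ∈ natBox n L, V x' := by
    rw [← sum_fiberwise_of_maps_to (g := fun (x' : Fin n → ℕ) i => x' i % p) (t := classes n p)
      (fun x' _ => mem_classes.2 fun i => Nat.mod_lt _ hp) V]
    simp only [funext_iff]
  obtain ⟨H, hH⟩ : ∃ H, H = ((L : ℝ) / p + 1) ^ n := ⟨_, rfl⟩
  have h1 : ∀ h' : Fin n → ℕ, ∑ m ∈ range p,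
      (∑ x' ∈ (natBox n L).filter (fun x' => ∀ i, x' i % p = h' i), D x' m) ^ 2 ≤
        H * ∑ x' ∈ (natBox n L).filter (fun x' => ∀ i, x' i % p = h' i), V x' := fun h' => by
    simp only [hV]
    rw [sum_comm (t := range p), mul_sum]
    exact sum_le_sum fun m _ => (sq_sum_le_card_mul_sum_sq).trans
      (mul_le_mul_of_nonneg_right (hH ▸ card_class_le h') (sum_nonneg fun _ _ => sq_nonneg _))
  refine le_trans (mul_le_mul_of_nonneg_left (sum_le_sum fun h' _ => h1 h')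
    (mul_nonneg (pow_nonneg (Nat.cast_nonneg p) n) (Nat.cast_nonneg p))) (le_of_eq ?_)
  rw [← mul_sum, ← classes, hfib, sum_congr rfl fun x' _ => hv x', ← mul_sum,
    show ((L : ℝ) + p) ^ n = (p : ℝ) ^ n * H by
      rw [hH, ← mul_pow, mul_add, mul_one, mul_div_cancel₀ _ hp']]
  ring

/-- **The large sieve for boxes.** -/
theorem box_large_sieve (n : ℕ) {L Q : ℕ} (P : Finset ℕ) (hP : ∀ p ∈ P, p.Prime ∧ p ≤ Q)
    (a : (Fin n → ℕ) → ℝ) :
    ∑ p ∈ P, boxVariance n L p a ≤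
      n * ((L : ℝ) + Q) ^ (n - 1) * ((L : ℝ) + Q * Q) * ∑ x ∈ natBox n L, a x ^ 2 := by
  induction n with
  | zero =>
    refine le_of_eq ?_
    rw [Nat.cast_zero, zero_mul, zero_mul, zero_mul]
    refine sum_eq_zero fun p _ => ?_
    simp [boxVariance, boxClassSum, classes, natBox, Fintype.piFinset_of_isEmpty]
  | succ n ih =>
    rw [Nat.add_sub_cancel]
    refine le_trans (sum_le_sum fun p hp => boxVariance_cons (hP p hp).1.pos L a) ?_
    rw [sum_add_distrib]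
    have hLQ : (0 : ℝ) ≤ (L : ℝ) + Q := add_nonneg (Nat.cast_nonneg _) (Nat.cast_nonneg _)
    obtain ⟨A, hA⟩ : ∃ A, A = ∑ x ∈ natBox (n + 1) L, a x ^ 2 := ⟨_, rfl⟩
    have hA' : A = ∑ x' ∈ natBox n L, ∑ m ∈ Ioc 0 L, a (Fin.cons m x') ^ 2 := by
      rw [hA, natBox, sum_piFinset_cons]; rfl
    have h1 : ∑ p ∈ P, ((L : ℝ) + p) ^ n *
        ∑ x' ∈ natBox n L, variance L p (fun m => a (Fin.cons m x')) ≤
          ((L : ℝ) + Q) ^ n * ((L : ℝ) + Q * Q) * A := by
      rw [hA', mul_assoc, mul_sum]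
      refine le_trans (sum_le_sum fun p hp => mul_le_mul_of_nonneg_right
        (pow_le_pow_left₀ (add_nonneg (Nat.cast_nonneg _) (Nat.cast_nonneg _))
          (add_le_add le_rfl (Nat.cast_le.2 (hP p hp).2)) n)
        (sum_nonneg fun x' _ => mul_nonneg (Nat.cast_nonneg p) (sum_nonneg fun _ _ => sq_nonneg _)))
          ?_
      rw [← mul_sum, sum_comm]
      exact mul_le_mul_of_nonneg_left (sum_le_sum fun x' _ => sum_variance_le P hP _)
        (pow_nonneg hLQ n)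
    have h2 := ih fun x' => ∑ m ∈ Ioc 0 L, a (Fin.cons m x')
    have h3 : ∑ x' ∈ natBox n L, (∑ m ∈ Ioc 0 L, a (Fin.cons m x')) ^ 2 ≤ ((L : ℝ) + Q) * A := by
      rw [hA', mul_sum]
      refine sum_le_sum fun x' _ => (sq_sum_le_card_mul_sum_sq).trans
        (mul_le_mul_of_nonneg_right ?_ (sum_nonneg fun _ _ => sq_nonneg _))
      simp
    rw [← hA]
    rcases Nat.eq_zero_or_pos n with rfl | hn
    · simp only [Nat.cast_zero, zero_mul, pow_zero, one_mul, zero_add, Nat.cast_one] at h1 h2 ⊢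
      linarith
    have h4 := mul_le_mul_of_nonneg_left h3 (mul_nonneg (mul_nonneg (Nat.cast_nonneg (α := ℝ) n)
      (pow_nonneg hLQ (n - 1))) (add_nonneg (Nat.cast_nonneg (α := ℝ) L)
        (mul_nonneg (Nat.cast_nonneg Q) (Nat.cast_nonneg Q))))
    have h5 : ((L : ℝ) + Q) ^ n = ((L : ℝ) + Q) ^ (n - 1) * ((L : ℝ) + Q) := by
      rw [← pow_succ, Nat.sub_add_cancel hn]
    rw [h5] at h1 ⊢
    push_cast
    linarith [h1, h2, h4]

/-- A set missing a fixed proportion of the classes at many primes is small. -/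
theorem card_mul_le_of_missing {n L Q : ℕ} (P : Finset ℕ) (hP : ∀ p ∈ P, p.Prime ∧ p ≤ Q)
    (S : Finset (Fin n → ℕ)) (hS : S ⊆ natBox n L) {c : ℝ}
    (hc : ∀ p ∈ P, ((S.image fun x i => x i % p).card : ℝ) ≤ (1 - c) * (p : ℝ) ^ n) :
    c * P.card * S.card ≤ n * ((L : ℝ) + Q) ^ (n - 1) * ((L : ℝ) + Q * Q) := by
  classical
  have h := box_large_sieve n P hP (L := L) fun x => if x ∈ S then (1 : ℝ) else 0
  have hA : ∑ x ∈ natBox n L, (if x ∈ S then (1 : ℝ) else 0) = S.card := by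
    rw [sum_boole, filter_mem_eq_inter, inter_eq_right.2 hS]
  have hA' : ∑ x ∈ natBox n L, (if x ∈ S then (1 : ℝ) else 0) ^ 2 = S.card := by
    rw [← hA]
    exact sum_congr rfl fun x _ => by split_ifs <;> simp
  rw [hA'] at h
  have hlow : ∀ p ∈ P, c * (S.card : ℝ) ^ 2 ≤
      boxVariance n L p fun x => if x ∈ S then (1 : ℝ) else 0 := by
    intro p hp
    have hpos : (0 : ℝ) < (p : ℝ) ^ n := pow_pos (Nat.cast_pos.2 (hP p hp).1.pos) n
    obtain ⟨T, hT⟩ : ∃ T, T = classes n p \ S.image fun x i => x i % p := ⟨_, rfl⟩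
    have hsub : (S.image fun x i => x i % p) ⊆ classes n p := image_subset_iff.2 fun x _ =>
      mem_classes.2 fun i => Nat.mod_lt _ (hP p hp).1.pos
    have hTcard : c * (p : ℝ) ^ n ≤ T.card := by
      rw [hT, card_sdiff_of_subset hsub, Nat.cast_sub (card_le_card hsub), card_classes,
        Nat.cast_pow]
      linarith [hc p hp]
    have hzero : ∀ h ∈ T, boxClassSum n L p (fun x => if x ∈ S then (1 : ℝ) else 0) h = 0 :=
      fun h hh => sum_eq_zero fun x hx => if_neg fun hxS => by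
        rw [hT, mem_sdiff] at hh
        exact hh.2 (mem_image.2 ⟨x, hxS, funext (mem_filter.1 hx).2⟩)
    rw [boxVariance, hA]
    refine le_trans ?_ (mul_le_mul_of_nonneg_left (sum_le_sum_of_subset_of_nonneg
      (show T ⊆ classes n p from hT ▸ sdiff_subset) fun _ _ _ => sq_nonneg _) hpos.le)
    rw [sum_congr rfl fun h hh => by rw [hzero h hh, zero_sub, neg_sq, div_pow], sum_const,
      nsmul_eq_mul]
    have h2 : c * ((p : ℝ) ^ n * (p : ℝ) ^ n) ≤ (p : ℝ) ^ n * T.card := by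
      nlinarith [mul_le_mul_of_nonneg_left hTcard hpos.le]
    rw [mul_div_assoc', mul_div_assoc', le_div_iff₀ (pow_pos hpos 2)]
    nlinarith [mul_le_mul_of_nonneg_left h2 (sq_nonneg (S.card : ℝ))]
  have h2 : c * P.card * (S.card : ℝ) * S.card ≤
      n * ((L : ℝ) + Q) ^ (n - 1) * ((L : ℝ) + Q * Q) * S.card := by
    refine le_trans (le_of_eq ?_) ((sum_le_sum hlow).trans h)
    rw [sum_const, nsmul_eq_mul]
    ring
  rcases Nat.eq_zero_or_pos S.card with h0 | hpos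
  · rw [h0, Nat.cast_zero, mul_zero]
    positivity
  exact le_of_mul_le_mul_right h2 (Nat.cast_pos.2 hpos)

end FA.ThinSets

end
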