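import Fermat.Agent.ThinSets.Gallagher

/-!
# Few fibres with a root without monicity, and thin sets
-/

set_option autoImplicit false
set_option linter.style.haveILetI false

noncomputable section

namespace FA.ThinSets

open Polynomial Filter Topology
open MvPolynomial (eval₂Hom)

local notation "Qb" => AlgebraicClosure ℚ

variable {n : ℕ}

/-- **Few fibres have a root**, without monicity. -/
theorem exists_few_fibres_general {f : (MvPolynomial (Fin n) ℤ)[X]} (h2 : 2 ≤ f.natDegree)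
    (hirr : Irreducible (f.map (MvPolynomial.map (Int.castRingHom Qb)))) :
    ∃ c κ : ℝ, 0 < c ∧ 0 < κ ∧ ∀ᶠ N : ℕ in atTop, ∃ P : Finset ℕ,
      (∀ p ∈ P, p.Prime ∧ p ≤ N) ∧ κ * ((N : ℝ) / Real.log N) ≤ P.card ∧
      ∀ p ∈ P, (Nat.card {x : Fin n → ZMod p // ∃ y, (spec f x).eval y = 0} : ℝ) ≤
        (1 - c) * (p : ℝ) ^ n := by
  classical
  obtain ⟨hgm, hgd, hgirr⟩ := exists_monic Qb (by omega) hirr
  obtain ⟨g, hg⟩ : ∃ g, g = f.integralNormalization := ⟨_, rfl⟩
  rw [← hg] at hgm hgd hgirr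
  obtain ⟨c, κ, hc, hκ, hev⟩ := exists_few_fibres hgm hgd h2 hgirr
  have hf0 : f ≠ 0 := fun e => by rw [e, natDegree_zero] at h2; omega
  obtain ⟨u, hu⟩ := MvPolynomial.exists_coeff_ne_zero (leadingCoeff_ne_zero.2 hf0)
  obtain ⟨p₀, hp₀⟩ : ∃ p₀ : ℕ, p₀ =
      max ((f.leadingCoeff.coeff u).natAbs + 1) ⌈2 * (f.leadingCoeff.totalDegree : ℝ) / c⌉₊ :=
    ⟨_, rfl⟩
  refine ⟨c / 2, κ / 2, by linarith, by linarith, ?_⟩
  filter_upwards [hev, eventually_sub_le (show 0 < κ / 2 by linarith) p₀] with N hN hN'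
  obtain ⟨P, hP, hcard, hclass⟩ := hN
  refine ⟨P \ Finset.range p₀, fun p hp => hP p (Finset.mem_sdiff.1 hp).1, ?_, fun p hp => ?_⟩
  · have h4 : (P.card : ℝ) ≤ (P \ Finset.range p₀).card + p₀ := by
      have := Finset.card_le_card_sdiff_add_card (s := P) (t := Finset.range p₀)
      rw [Finset.card_range] at this
      exact_mod_cast this
    linarith
  obtain ⟨hpP, hplarge⟩ := Finset.mem_sdiff.1 hp
  rw [Finset.mem_range, not_lt, hp₀, max_le_iff, Nat.ceil_le] at hplarge
  haveI := Fact.mk (hP p hpP).1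
  obtain ⟨lp, hlp⟩ : ∃ lp, lp = f.leadingCoeff.map (Int.castRingHom (ZMod p)) := ⟨_, rfl⟩
  have hlp0 : lp ≠ 0 := fun e => by
    have h1 := congrArg (MvPolynomial.coeff u) e
    rw [hlp, MvPolynomial.coeff_map, MvPolynomial.coeff_zero, eq_intCast,
      ZMod.intCast_zmod_eq_zero_iff_dvd, Int.natCast_dvd] at h1
    have := Nat.le_of_dvd (Int.natAbs_pos.2 hu) h1
    omega
  have hlpdeg := (LangWeilAll.natCard_zeros_mul_le hlp0).trans (Nat.mul_le_mul_right _
    (hlp ▸ LangWeilAll.totalDegree_map_le _ f.leadingCoeff :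
      lp.totalDegree ≤ f.leadingCoeff.totalDegree))
  rw [Nat.card_zmod, Nat.card_eq_fintype_card, Fintype.card_subtype] at hlpdeg
  have h1 := hclass p hpP
  rw [Nat.card_eq_fintype_card, Fintype.card_subtype] at h1 ⊢
  have hsub : (Finset.univ.filter fun x : Fin n → ZMod p => ∃ y, (spec f x).eval y = 0).card ≤
      (Finset.univ.filter fun x : Fin n → ZMod p => ∃ y, (spec g x).eval y = 0).card +
        (Finset.univ.filter fun x : Fin n → ZMod p => MvPolynomial.eval x lp = 0).card := by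
    refine le_trans (Finset.card_le_card fun x hx => ?_) (Finset.card_union_le _ _)
    obtain ⟨y, hy⟩ := (Finset.mem_filter.1 hx).2
    rw [Finset.mem_union, Finset.mem_filter, Finset.mem_filter]
    refine (em (MvPolynomial.eval x lp = 0)).symm.imp (fun h => ⟨Finset.mem_univ _, ?_⟩)
      fun h => ⟨Finset.mem_univ _, h⟩
    rw [hlp, MvPolynomial.eval_map] at h
    obtain ⟨φ, hφ⟩ : ∃ φ, φ = eval₂Hom (Int.castRingHom (ZMod p)) x := ⟨_, rfl⟩
    rw [spec, ← hφ, eval_map] at hy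
    have h3 := scaleRoots_eval₂_eq_zero φ (s := f.leadingCoeff) hy
    rw [← integralNormalization_mul_C_leadingCoeff, eval₂_mul, eval₂_C, mul_eq_zero,
      or_iff_left (by rw [hφ]; exact h), ← hg] at h3
    exact ⟨φ f.leadingCoeff * y, by rw [spec, ← hφ, eval_map]; exact h3⟩
  have hp0 : (0 : ℝ) < p := Nat.cast_pos.2 (hP p hpP).1.pos
  have hpow : (0 : ℝ) ≤ (p : ℝ) ^ n := by positivity
  have hl : ((Finset.univ.filter fun x : Fin n → ZMod p => MvPolynomial.eval x lp = 0).card : ℝ) ≤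
      c / 2 * (p : ℝ) ^ n := by
    have h5 : ((Finset.univ.filter fun x : Fin n → ZMod p =>
        MvPolynomial.eval x lp = 0).card : ℝ) * p ≤ f.leadingCoeff.totalDegree * (p : ℝ) ^ n := by
      exact_mod_cast hlpdeg
    have h6 : 2 * (f.leadingCoeff.totalDegree : ℝ) ≤ c * p := by
      have := hplarge.2
      rw [div_le_iff₀ hc] at this
      linarith
    refine le_of_mul_le_mul_right ?_ hp0
    nlinarith [mul_le_mul_of_nonneg_right h6 hpow]
  have h7 : ((Finset.univ.filter fun x : Fin n → ZMod p => ∃ y, (spec f x).eval y = 0).card : ℝ) ≤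
      ((Finset.univ.filter fun x : Fin n → ZMod p => ∃ y, (spec g x).eval y = 0).card : ℝ) +
        (Finset.univ.filter fun x : Fin n → ZMod p => MvPolynomial.eval x lp = 0).card := by
    exact_mod_cast hsub
  linarith

/-- **Thin sets have few points.** -/
theorem smallSet_thin {ι : Type*} [Fintype ι] (f : ι → (MvPolynomial (Fin n) ℤ)[X])
    (h2 : ∀ i, 2 ≤ (f i).natDegree)
    (hirr : ∀ i, Irreducible ((f i).map (MvPolynomial.map (Int.castRingHom ℚ))))
    {R : MvPolynomial (Fin n) ℚ} (hR : R ≠ 0) :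
    SmallSet {x | MvPolynomial.eval (fun i => (x i : ℚ)) R = 0 ∨
      ∃ j, ∃ y : ℚ, (spec (f j) fun i => (x i : ℚ)).eval y = 0} :=
  ((smallSet_zeros hR).union (SmallSet.biUnion Finset.univ
    fun j _ => smallSet_ratRootSet (h2 j) (hirr j))).mono fun _ hx =>
      hx.imp_right fun ⟨j, hj⟩ => ⟨j, Finset.mem_univ j, hj⟩

end FA.ThinSets

end
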