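import Fermat.Agent.ThinSets.Hilbert
import Mathlib.FieldTheory.PolynomialGaloisGroup

/-!
# Gallagher's theorem on polynomials with small group

Over `ℤ[a] ⊆ ℤ[t]`, the coefficients of `∏ (Y - t_i)`, the element `∑ i t_i` has `m !` conjugates.
Where its equation stays irreducible the splitting field has degree at least `m !`.
-/

set_option autoImplicit false
set_option linter.style.haveILetI false

noncomputable section

namespace FA.ThinSets

open Polynomial

/-- The generic monic polynomial of degree `m`. -/
def generic (m : ℕ) : (MvPolynomial (Fin m) ℤ)[X] :=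
  Polynomial.X ^ m + ∑ i : Fin m, C (MvPolynomial.X i) * Polynomial.X ^ (i : ℕ)

theorem monic_generic (m : ℕ) : (generic m).Monic :=
  monic_X_pow_add (degree_sum_fin_lt _)

theorem natDegree_generic (m : ℕ) : (generic m).natDegree = m := by
  refine natDegree_eq_of_degree_eq_some ?_
  rw [generic, degree_add_eq_left_of_degree_lt (by rw [degree_X_pow]; exact degree_sum_fin_lt _),
    degree_X_pow]

theorem map_generic {R : Type*} [CommRing R] (m : ℕ) (φ : MvPolynomial (Fin m) ℤ →+* R) :
    (generic m).map φ =
      Polynomial.X ^ m + ∑ i : Fin m, C (φ (MvPolynomial.X i)) * Polynomial.X ^ (i : ℕ) := by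
  simp [generic, Polynomial.map_sum]

theorem map_eq_of_monic {R : Type*} [CommRing R] [Nontrivial R] {m : ℕ} {P : R[X]} (hP : P.Monic)
    (hd : P.natDegree = m) (φ : MvPolynomial (Fin m) ℤ →+* R)
    (hφ : ∀ i : Fin m, φ (MvPolynomial.X i) = P.coeff i) : (generic m).map φ = P := by
  conv_rhs => rw [hP.as_sum, hd, Finset.sum_range fun i => C (P.coeff i) * Polynomial.X ^ i]
  rw [map_generic]
  exact congrArg _ (Finset.sum_congr rfl fun i _ => by rw [hφ])

theorem coeff_generic {m : ℕ} (i : Fin m) : (generic m).coeff (i : ℕ) = MvPolynomial.X i := by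
  simp [generic, Fin.val_inj, i.isLt.ne]

/-- The coefficients of `∏ (Y - t_i)`. -/
def symmHom (m : ℕ) : MvPolynomial (Fin m) ℤ →+* MvPolynomial (Fin m) ℤ :=
  MvPolynomial.eval₂Hom MvPolynomial.C fun i =>
    (∏ l : Fin m, (Polynomial.X - C (MvPolynomial.X l : MvPolynomial (Fin m) ℤ))).coeff i

theorem monic_rootProd {R : Type*} [CommRing R] [Nontrivial R] {m : ℕ} (r : Fin m → R) :
    (∏ l, (Polynomial.X - C (r l))).Monic ∧ (∏ l, (Polynomial.X - C (r l))).natDegree = m :=
  ⟨monic_prod_of_monic _ _ fun l _ => monic_X_sub_C _, by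
    rw [natDegree_prod_of_monic _ _ fun l _ => monic_X_sub_C _]; simp⟩

theorem map_generic_symmHom (m : ℕ) :
    (generic m).map (symmHom m) = ∏ l : Fin m, (Polynomial.X - C (MvPolynomial.X l)) :=
  map_eq_of_monic (monic_rootProd _).1 (monic_rootProd _).2 _ fun i => by simp [symmHom]

theorem exists_roots {L : Type*} [Field L] [IsAlgClosed L] {m : ℕ} {P : L[X]} (hP : P.Monic)
    (hd : P.natDegree = m) : ∃ r : Fin m → L, P = ∏ l, (Polynomial.X - C (r l)) := by
  have hs := IsAlgClosed.splits P
  have hcard : P.roots.toList.length = m := by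
    rw [Multiset.length_toList, ← hs.natDegree_eq_card_roots, hd]
  subst hcard
  refine ⟨fun l => P.roots.toList[(l : ℕ)], ?_⟩
  refine (hs.eq_prod_roots_of_monic hP).trans ?_
  rw [Fin.prod_univ_fun_getElem P.roots.toList fun a => Polynomial.X - C a,
    Multiset.prod_map_toList]

theorem symmHom_injective (m : ℕ) : Function.Injective (symmHom m) := by
  refine (injective_iff_map_eq_zero _).2 fun P hP => MvPolynomial.funext fun a => ?_
  rw [map_zero]
  obtain ⟨r, hr⟩ := exists_roots (L := AlgebraicClosure ℚ)
    ((monic_generic m).map ((Int.castRingHom _).comp (MvPolynomial.eval a)))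
    (by rw [(monic_generic m).natDegree_map, natDegree_generic])
  have h : (MvPolynomial.eval₂Hom (Int.castRingHom _) r).comp (symmHom m) =
      (Int.castRingHom (AlgebraicClosure ℚ)).comp (MvPolynomial.eval a) := by
    refine MvPolynomial.ringHom_ext (fun c => by simp [symmHom]) fun i => ?_
    have h1 := congrArg (fun Q => Q.coeff (i : ℕ)) hr
    rw [coeff_map] at h1
    rw [coeff_generic] at h1
    refine Eq.trans ?_ h1.symm
    rw [RingHom.comp_apply, show symmHom m (MvPolynomial.X i) = _ from
      MvPolynomial.eval₂Hom_X' _ _ i, ← coeff_map, Polynomial.map_prod]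
    simp
  have h2 := RingHom.congr_fun h P
  rw [RingHom.comp_apply, hP, map_zero, RingHom.comp_apply] at h2
  exact (Int.castRingHom (AlgebraicClosure ℚ)).injective_int (h2.symm.trans (map_zero _).symm)

theorem rename_symmHom {m : ℕ} (σ : Equiv.Perm (Fin m)) (P : MvPolynomial (Fin m) ℤ) :
    MvPolynomial.rename σ (symmHom m P) = symmHom m P := by
  refine RingHom.congr_fun (MvPolynomial.ringHom_ext
    (f := (MvPolynomial.rename σ).toRingHom.comp (symmHom m)) (g := symmHom m)
    (fun c => by simp [symmHom]) fun i => ?_) P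
  rw [RingHom.comp_apply, show symmHom m (MvPolynomial.X i) = _ from MvPolynomial.eval₂Hom_X' _ _ i,
    ← coeff_map, Polynomial.map_prod]
  refine congrArg (fun Q : Polynomial _ => Q.coeff (i : ℕ)) ?_
  refine (Finset.prod_congr rfl fun l _ => ?_).trans
    (Equiv.prod_comp σ fun l => Polynomial.X - C (MvPolynomial.X l))
  simp

/-- `∑ i t_i`. -/
def genericElement (m : ℕ) : MvPolynomial (Fin m) ℤ :=
  ∑ l : Fin m, MvPolynomial.C (l : ℤ) * MvPolynomial.X l

theorem rename_genericElement_injective (m : ℕ) :
    Function.Injective fun σ : Equiv.Perm (Fin m) => MvPolynomial.rename σ (genericElement m) := by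
  intro σ τ h
  refine Equiv.ext fun l => ?_
  have h1 := congrArg (MvPolynomial.coeff (Finsupp.single (σ l) 1)) h
  simp only [genericElement, map_sum, map_mul, MvPolynomial.rename_C, MvPolynomial.rename_X,
    MvPolynomial.coeff_sum, MvPolynomial.coeff_C_mul, MvPolynomial.coeff_X,
    Finsupp.single_left_inj one_ne_zero, mul_ite, mul_one, mul_zero] at h1
  rw [Finset.sum_eq_single l (fun b _ hb => if_neg fun e => hb (σ.injective e)) (by simp), if_pos rfl,
    Finset.sum_eq_single (τ.symm (σ l))
      (fun b _ hb => if_neg fun e => hb (by rw [← e, Equiv.symm_apply_apply])) (by simp),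
    if_pos (τ.apply_symm_apply _)] at h1
  rw [← τ.apply_symm_apply (σ l), ← Fin.ext (Int.ofNat_inj.1 h1)]

theorem exists_generic_resolvent (m : ℕ) : ∃ Θ : (MvPolynomial (Fin m) ℤ)[X], Θ.Monic ∧
    m.factorial ≤ Θ.natDegree ∧ Θ.eval₂ (symmHom m) (genericElement m) = 0 ∧
      Irreducible (Θ.map (MvPolynomial.map (Int.castRingHom ℚ))) := by
  classical
  have hint : (symmHom m).IsIntegralElem (genericElement m) := by
    refine Finset.sum_induction _ (symmHom m).IsIntegralElem
      (fun a b => RingHom.IsIntegralElem.add _) ⟨Polynomial.X, monic_X, by simp⟩ fun l _ => ?_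
    refine RingHom.IsIntegralElem.mul _
      ⟨Polynomial.X - C (MvPolynomial.C (l : ℤ)), monic_X_sub_C _, by simp [symmHom]⟩
      ⟨generic m, monic_generic m, ?_⟩
    rw [← eval_map, map_generic_symmHom, eval_prod]
    exact Finset.prod_eq_zero (Finset.mem_univ l) (by simp)
  have hex : ∃ d, ∃ P : (MvPolynomial (Fin m) ℤ)[X], P.Monic ∧ P.natDegree = d ∧
      P.eval₂ (symmHom m) (genericElement m) = 0 :=
    let ⟨P, h1, h2⟩ := hint; ⟨_, P, h1, rfl, h2⟩
  obtain ⟨Θ, hm, hd, hzero⟩ := Nat.find_spec hex
  have hirr : Irreducible Θ := by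
    refine hm.irreducible_iff_natDegree.2 ⟨fun e => ?_, fun g h hg hh hgh => ?_⟩
    · rw [e, eval₂_one] at hzero
      exact one_ne_zero hzero
    · have hdeg := congrArg natDegree hgh
      rw [hg.natDegree_mul hh, hd] at hdeg
      rw [← hgh, eval₂_mul, mul_eq_zero] at hzero
      rcases hzero with h0 | h0
      · have := Nat.find_min' hex ⟨g, hg, rfl, h0⟩
        right; omega
      · have := Nat.find_min' hex ⟨h, hh, rfl, h0⟩
        left; omega
  refine ⟨Θ, hm, ?_, hzero, ?_⟩
  · have hsub : Finset.univ.image (fun σ : Equiv.Perm (Fin m) =>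
        MvPolynomial.rename σ (genericElement m)) ⊆ (Θ.map (symmHom m)).roots.toFinset := by
      intro z hz
      obtain ⟨σ, -, rfl⟩ := Finset.mem_image.1 hz
      rw [Multiset.mem_toFinset, mem_roots (hm.map _).ne_zero, IsRoot, eval_map]
      have h1 := congrArg (MvPolynomial.rename (R := ℤ) σ).toRingHom hzero
      rw [map_zero, hom_eval₂,
        show (MvPolynomial.rename σ).toRingHom.comp (symmHom m) = symmHom m from
          RingHom.ext (rename_symmHom σ)] at h1
      exact h1
    have := (Finset.card_le_card hsub).trans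
      ((Multiset.toFinset_card_le _).trans (card_roots' _))
    rwa [Finset.card_image_of_injective _ (rename_genericElement_injective m), Finset.card_univ,
      Fintype.card_perm, Fintype.card_fin, hm.natDegree_map] at this
  · haveI : CharZero (FractionRing (MvPolynomial (Fin m) ℤ)) :=
      charZero_of_injective_ringHom (IsFractionRing.injective (MvPolynomial (Fin m) ℤ) _)
    exact irreducible_map_of_isFractionRing hm
      ((hm.irreducible_iff_irreducible_map_fraction_map
        (K := FractionRing (MvPolynomial (Fin m) ℤ))).1 hirr)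

theorem irreducible_generic {m : ℕ} (hm : 1 ≤ m) :
    Irreducible ((generic m).map (MvPolynomial.map (Int.castRingHom ℚ))) := by
  classical
  haveI : CharZero (FractionRing (MvPolynomial (Fin m) ℤ)) :=
    charZero_of_injective_ringHom (IsFractionRing.injective (MvPolynomial (Fin m) ℤ) _)
  refine irreducible_map_of_isFractionRing (monic_generic m)
    (((monic_generic m).irreducible_iff_irreducible_map_fraction_map
      (K := FractionRing (MvPolynomial (Fin m) ℤ))).1 ?_)
  refine (monic_generic m).irreducible_iff_natDegree.2 ⟨fun e => ?_, fun g h hg hh hgh => ?_⟩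
  · have := natDegree_generic m
    rw [e, natDegree_one] at this
    omega
  by_contra hno
  push Not at hno
  have hB := congrArg (Polynomial.map (symmHom m)) hgh
  rw [Polynomial.map_mul, map_generic_symmHom] at hB
  have hsum := congrArg natDegree hgh
  rw [hg.natDegree_mul hh, natDegree_generic] at hsum
  -- all the `t_l` are roots of one factor
  have hroot : ∀ l, (g.map (symmHom m)).eval (MvPolynomial.X l) = 0 ∨
      (h.map (symmHom m)).eval (MvPolynomial.X l) = 0 := fun l => by
    rw [← mul_eq_zero, ← eval_mul, hB, eval_prod]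
    exact Finset.prod_eq_zero (Finset.mem_univ l) (by simp)
  have hall : ∀ P : (MvPolynomial (Fin m) ℤ)[X], P.Monic → ∀ l,
      (P.map (symmHom m)).eval (MvPolynomial.X l) = 0 → m ≤ P.natDegree := fun P hP l hl => by
    have hsub : Finset.univ.image (fun l' : Fin m => (MvPolynomial.X l' : MvPolynomial (Fin m) ℤ)) ⊆
        (P.map (symmHom m)).roots.toFinset := by
      intro z hz
      obtain ⟨l', -, rfl⟩ := Finset.mem_image.1 hz
      rw [Multiset.mem_toFinset, mem_roots (hP.map _).ne_zero, IsRoot]
      have h1 := congrArg (MvPolynomial.rename (R := ℤ) (Equiv.swap l l')).toRingHom hl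
      rw [map_zero, eval_map, hom_eval₂,
        show (MvPolynomial.rename (Equiv.swap l l')).toRingHom.comp (symmHom m) = symmHom m from
          RingHom.ext (rename_symmHom _)] at h1
      rw [eval_map]
      simpa using h1
    have := (Finset.card_le_card hsub).trans ((Multiset.toFinset_card_le _).trans (card_roots' _))
    rwa [Finset.card_image_of_injective _ MvPolynomial.X_injective, Finset.card_univ,
      Fintype.card_fin, hP.natDegree_map] at this
  rcases hroot ⟨0, hm⟩ with hl | hl
  · have := hall g hg _ hl; omega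
  · have := hall h hh _ hl; omega

theorem spec_generic {m : ℕ} {R : Type*} [CommRing R] (a : Fin m → R) :
    spec (generic m) a = Polynomial.X ^ m + ∑ i : Fin m, C (a i) * Polynomial.X ^ (i : ℕ) := by
  simp [spec, map_generic]

/-- An element of degree `m !` in a splitting field makes the group symmetric. -/
theorem gal_equiv_perm {F : Type} [Field F] {f : F[X]} {m : ℕ} (hsep : f.Separable)
    (hd : f.natDegree = m)
    (hz : ∀ (L : Type) [Field L] [Algebra F L], (f.map (algebraMap F L)).Splits →
      ∃ z : L, m.factorial ≤ (minpoly F z).natDegree) :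
    Nonempty (f.Gal ≃* Equiv.Perm (Fin m)) := by
  classical
  have hs := SplittingField.splits f
  obtain ⟨z, hz⟩ := hz f.SplittingField hs
  haveI : Fact ((f.map (algebraMap F f.SplittingField)).Splits) := ⟨hs⟩
  have hinj := Gal.galActionHom_injective f f.SplittingField
  have hroots : Nat.card (f.rootSet f.SplittingField) = m := by
    rw [Nat.card_eq_fintype_card, card_rootSet_eq_natDegree hsep hs, hd]
  have hperm : Nat.card (Equiv.Perm (f.rootSet f.SplittingField)) = m.factorial := by
    rw [Nat.card_perm, hroots]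
  have hbij : Function.Bijective (Gal.galActionHom f f.SplittingField) :=
    (Nat.bijective_iff_injective_and_card _).2 ⟨hinj, le_antisymm
      (Nat.card_le_card_of_injective _ hinj) (by
        rw [hperm, Gal.card_of_separable hsep]
        exact hz.trans (minpoly.natDegree_le _))⟩
  exact ⟨(MulEquiv.ofBijective _ hbij).trans
    (Equiv.permCongrHom (Finite.equivFinOfCardEq hroots))⟩

/-- **Gallagher's theorem.** -/
theorem smallSet_not_symmetric {m : ℕ} (hm : 1 ≤ m) :
    SmallSet {a : Fin m → ℤ |
      ¬(Irreducible (spec (generic m) fun i => (a i : ℚ)) ∧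
        Nonempty ((spec (generic m) fun i => (a i : ℚ)).Gal ≃* Equiv.Perm (Fin m)))} := by
  classical
  obtain ⟨Θ, hΘm, hΘd, hΘ0, hΘirr⟩ := exists_generic_resolvent m
  have hΘd0 : Θ.natDegree ≠ 0 := (lt_of_lt_of_le m.factorial_pos hΘd).ne'
  refine ((smallSet_reducible (by rw [natDegree_generic]; omega) (irreducible_generic hm)).union
    (smallSet_reducible hΘd0 hΘirr)).mono fun a ha => ?_
  by_contra hgood
  rw [Set.mem_union, not_or] at hgood
  have hf : Irreducible (spec (generic m) fun i => (a i : ℚ)) := not_not.1 hgood.1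
  have hΘa : Irreducible (spec Θ fun i => (a i : ℚ)) := not_not.1 hgood.2
  have hfm : (spec (generic m) fun i => (a i : ℚ)).Monic := (monic_generic m).map _
  have hfd : (spec (generic m) fun i => (a i : ℚ)).natDegree = m :=
    ((monic_generic m).natDegree_map _).trans (natDegree_generic m)
  refine ha ⟨hf, gal_equiv_perm hf.separable hfd fun L _ _ hs => ?_⟩
  obtain ⟨r, hr⟩ := exists_linear_factors (hfm.map (algebraMap ℚ L)) hs hf.separable.map
    (by rw [hfm.natDegree_map, hfd])
  obtain ⟨φ, hφ⟩ : ∃ φ, φ = MvPolynomial.eval₂Hom (Int.castRingHom ℚ) fun i => (a i : ℚ) := ⟨_, rfl⟩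
  obtain ⟨ψ, hψ⟩ : ∃ ψ, ψ = MvPolynomial.eval₂Hom (Int.castRingHom L) r := ⟨_, rfl⟩
  have hψφ : ψ.comp (symmHom m) = (algebraMap ℚ L).comp φ := by
    refine MvPolynomial.ringHom_ext (fun c => by simp [hψ, hφ, symmHom]) fun i => ?_
    rw [RingHom.comp_apply, show symmHom m (MvPolynomial.X i) = _ from
      MvPolynomial.eval₂Hom_X' _ _ i, ← coeff_map, Polynomial.map_prod, RingHom.comp_apply]
    have h1 := congrArg (fun Q : Polynomial _ => Q.coeff (i : ℕ)) hr
    rw [spec, ← hφ, coeff_map, coeff_map, coeff_generic] at h1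
    refine Eq.trans ?_ h1.symm
    refine congrArg (fun Q : Polynomial _ => Q.coeff (i : ℕ))
      (Finset.prod_congr rfl fun l _ => ?_)
    simp [hψ]
  have hroot : aeval (ψ (genericElement m)) (Θ.map φ) = 0 := by
    rw [aeval_def, eval₂_map, ← hψφ, ← hom_eval₂, hΘ0, map_zero]
  refine ⟨ψ (genericElement m), ?_⟩
  rw [← minpoly.eq_of_irreducible_of_monic (by rwa [spec, ← hφ] at hΘa) hroot (hΘm.map _),
    hΘm.natDegree_map]
  exact hΘd

end FA.ThinSets

end
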