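import Fermat.Agent.ThinSets.Cohen

/-!
# Hilbert irreducibility with an error term

A factor of a specialisation of `g` comes from a product of some of its roots; some coefficient of
such a product is irrational over `ℚ (x)`, and its equation has a rational root at the point.
-/

set_option autoImplicit false
set_option linter.style.haveILetI false

noncomputable section

namespace FA.ThinSets

open Polynomial

variable {n : ℕ}

/-- A monic divisor of a product of linear factors is the product of some of them. -/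
theorem exists_subset_of_dvd {F ι : Type*} [Field F] (Z : Finset ι) (a : ι → F) :
    ∀ h : F[X], h.Monic → h ∣ ∏ i ∈ Z, (Polynomial.X - C (a i)) →
      ∃ S ⊆ Z, h = ∏ i ∈ S, (Polynomial.X - C (a i)) := by
  classical
  induction Z using Finset.induction_on with
  | empty =>
    intro h hm hd
    rw [Finset.prod_empty] at hd
    exact ⟨∅, subset_rfl, by rw [Finset.prod_empty, hm.eq_one_of_isUnit (isUnit_of_dvd_one hd)]⟩
  | insert b Z hb ih =>
    intro h hm hd
    rw [Finset.prod_insert hb] at hd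
    by_cases hdiv : (Polynomial.X - C (a b)) ∣ h
    · obtain ⟨h', rfl⟩ := hdiv
      obtain ⟨S, hS, hS'⟩ := ih h' ((monic_X_sub_C (a b)).of_mul_monic_left hm)
        ((mul_dvd_mul_iff_left (X_sub_C_ne_zero (a b))).1 hd)
      exact ⟨insert b S, Finset.insert_subset_insert b hS, by
        rw [Finset.prod_insert fun h => hb (hS h), ← hS']⟩
    · obtain ⟨S, hS, hS'⟩ := ih h hm
        (((irreducible_X_sub_C (a b)).coprime_iff_not_dvd.2 hdiv).symm.dvd_of_dvd_mul_left hd)
      exact ⟨S, hS.trans (Finset.subset_insert b Z), hS'⟩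

/-- The extension of the evaluation at `x` to the integral elements. -/
theorem exists_specialisation_hom {B : Type} [CommRing B] [Algebra (MvPolynomial (Fin n) ℤ) B]
    [Algebra.IsIntegral (MvPolynomial (Fin n) ℤ) B]
    (hinj : Function.Injective (algebraMap (MvPolynomial (Fin n) ℤ) B)) (x : Fin n → ℤ) :
    ∃ (L : Type) (_ : Field L) (_ : CharZero L) (ψ : B →+* L),
      ψ.comp (algebraMap (MvPolynomial (Fin n) ℤ) B) =
        (Int.castRingHom L).comp (MvPolynomial.eval x) := by
  haveI : (RingHom.ker (MvPolynomial.eval x)).IsPrime := RingHom.ker_isPrime _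
  obtain ⟨Q, -, hQ, hcomap⟩ := Ideal.exists_ideal_over_prime_of_isIntegral
    (RingHom.ker (MvPolynomial.eval x)) (⊥ : Ideal B) (by
      rw [← RingHom.ker_eq_comap_bot, (RingHom.injective_iff_ker_eq_bot _).1 hinj]
      exact bot_le)
  have key : ∀ P, MvPolynomial.eval x P = 0 →
      algebraMap (MvPolynomial (Fin n) ℤ) B P ∈ Q := fun P hP => by
    rw [← Ideal.mem_comap, hcomap]
    exact hP
  obtain ⟨ψ, hψ⟩ : ∃ ψ : B →+* FractionRing (B ⧸ Q),
      ψ = (algebraMap (B ⧸ Q) (FractionRing (B ⧸ Q))).comp (Ideal.Quotient.mk Q) := ⟨_, rfl⟩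
  have hker : ∀ b, ψ b = 0 ↔ b ∈ Q := fun b => by
    rw [hψ, RingHom.comp_apply, map_eq_zero_iff _ (IsFractionRing.injective _ _),
      Ideal.Quotient.eq_zero_iff_mem]
  have hcomp : ψ.comp (algebraMap (MvPolynomial (Fin n) ℤ) B) =
      (Int.castRingHom _).comp (MvPolynomial.eval x) := by
    refine RingHom.ext fun P => ?_
    have h1 : ψ (algebraMap _ B (P - MvPolynomial.C (MvPolynomial.eval x P))) = 0 :=
      (hker _).2 (key _ (by simp))
    rw [map_sub, map_sub, sub_eq_zero] at h1
    rw [RingHom.comp_apply, h1]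
    exact RingHom.congr_fun (RingHom.ext_int ((ψ.comp (algebraMap _ B)).comp MvPolynomial.C)
      (Int.castRingHom _)) _
  have hchar : CharZero (FractionRing (B ⧸ Q)) := by
    refine charZero_of_inj_zero fun k hk => ?_
    have h1 : algebraMap (MvPolynomial (Fin n) ℤ) B (k : MvPolynomial (Fin n) ℤ) ∈ Q := by
      rw [← hker, map_natCast, map_natCast]; exact hk
    rw [← Ideal.mem_comap, hcomap, RingHom.mem_ker, map_natCast] at h1
    exact_mod_cast h1
  exact ⟨FractionRing (B ⧸ Q), inferInstance, hchar, ψ, hcomp⟩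

theorem irreducible_map_of_isFractionRing {K : Type} [Field K] [CharZero K]
    [Algebra (MvPolynomial (Fin n) ℤ) K] {q : (MvPolynomial (Fin n) ℤ)[X]} (hm : q.Monic)
    (h : Irreducible (q.map (algebraMap (MvPolynomial (Fin n) ℤ) K))) :
    Irreducible (q.map (MvPolynomial.map (Int.castRingHom ℚ))) := by
  refine Monic.irreducible_of_irreducible_map (MvPolynomial.eval₂Hom (Rat.castHom K)
    fun i => algebraMap (MvPolynomial (Fin n) ℤ) K (MvPolynomial.X i)) _ (hm.map _) ?_
  rw [Polynomial.map_map]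
  rwa [show (MvPolynomial.eval₂Hom (Rat.castHom K)
      fun i => algebraMap (MvPolynomial (Fin n) ℤ) K (MvPolynomial.X i)).comp
        (MvPolynomial.map (Int.castRingHom ℚ)) = algebraMap (MvPolynomial (Fin n) ℤ) K from
    MvPolynomial.ringHom_ext (fun r => by simp) fun i => by simp]

theorem irreducible_of_map {g : (MvPolynomial (Fin n) ℤ)[X]} (hm : g.Monic)
    (h : Irreducible (g.map (MvPolynomial.map (Int.castRingHom ℚ)))) : Irreducible g :=
  hm.irreducible_of_irreducible_map _ g h

/-- **Hilbert irreducibility for a monic polynomial.** -/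
theorem smallSet_reducible_monic {g : (MvPolynomial (Fin n) ℤ)[X]} (hgm : g.Monic)
    (hirr : Irreducible (g.map (MvPolynomial.map (Int.castRingHom ℚ)))) :
    SmallSet {x | ¬Irreducible (spec g fun i => (x i : ℚ))} := by
  classical
  obtain ⟨K, _, _, _, -⟩ : ∃ (K : Type) (_ : Field K) (_ : Algebra (MvPolynomial (Fin n) ℤ) K)
      (_ : IsFractionRing (MvPolynomial (Fin n) ℤ) K), True :=
    ⟨FractionRing (MvPolynomial (Fin n) ℤ), inferInstance, inferInstance, inferInstance, trivial⟩
  have hinjK := IsFractionRing.injective (MvPolynomial (Fin n) ℤ) K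
  haveI : CharZero K := charZero_of_injective_ringHom hinjK
  obtain ⟨gK, hgK⟩ : ∃ gK, gK = g.map (algebraMap (MvPolynomial (Fin n) ℤ) K) := ⟨_, rfl⟩
  have hgKirr : Irreducible gK :=
    hgK ▸ (hgm.irreducible_iff_irreducible_map_fraction_map).1 (irreducible_of_map hgm hirr)
  obtain ⟨Ω, _, _, hs⟩ : ∃ (Ω : Type) (_ : Field Ω) (_ : Algebra K Ω),
      (gK.map (algebraMap K Ω)).Splits :=
    ⟨gK.SplittingField, inferInstance, inferInstance, SplittingField.splits gK⟩
  letI : Algebra (MvPolynomial (Fin n) ℤ) Ω :=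
    ((algebraMap K Ω).comp (algebraMap (MvPolynomial (Fin n) ℤ) K)).toAlgebra
  haveI : IsScalarTower (MvPolynomial (Fin n) ℤ) K Ω := IsScalarTower.of_algebraMap_eq fun _ => rfl
  have hinjΩ : Function.Injective (algebraMap (MvPolynomial (Fin n) ℤ) Ω) :=
    (algebraMap K Ω).injective.comp hinjK
  haveI : Module.IsTorsionFree (MvPolynomial (Fin n) ℤ) Ω :=
    Module.isTorsionFree_iff_algebraMap_injective.2 hinjΩ
  obtain ⟨gΩ, hgΩ⟩ : ∃ gΩ, gΩ = g.map (algebraMap (MvPolynomial (Fin n) ℤ) Ω) := ⟨_, rfl⟩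
  have hgΩ' : gΩ = gK.map (algebraMap K Ω) := by rw [hgΩ, hgK, Polynomial.map_map]; rfl
  rw [← hgΩ'] at hs
  have hnodup : gΩ.roots.Nodup := Polynomial.nodup_roots (hgΩ' ▸ hgKirr.separable.map)
  obtain ⟨Z, hZ⟩ : ∃ Z, Z = gΩ.roots.toFinset := ⟨_, rfl⟩
  have hprod : gΩ = ∏ z ∈ Z, (Polynomial.X - C z) := by
    conv_lhs => rw [hs.eq_prod_roots_of_monic (hgΩ ▸ hgm.map _)]
    rw [hZ, Finset.prod_eq_multiset_prod, Multiset.toFinset_val, hnodup.dedup]
  have hint : ∀ z ∈ Z, IsIntegral (MvPolynomial (Fin n) ℤ) z := fun z hz => by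
    refine ⟨g, hgm, ?_⟩
    rw [hZ, Multiset.mem_toFinset, mem_roots (hgΩ ▸ hgm.map _).ne_zero, IsRoot, hgΩ, eval_map] at hz
    exact hz
  obtain ⟨B, hB⟩ : ∃ B, B = integralClosure (MvPolynomial (Fin n) ℤ) Ω := ⟨_, rfl⟩
  obtain ⟨b, hb⟩ : ∃ b : Z → B, ∀ z, ((b z : B) : Ω) = z :=
    ⟨fun z => ⟨z, hB ▸ hint z z.2⟩, fun _ => rfl⟩
  haveI : Algebra.IsIntegral (MvPolynomial (Fin n) ℤ) B := by
    rw [hB]; infer_instance
  -- the products of some of the roots
  obtain ⟨T, hT⟩ : ∃ T : Finset Z → B[X], ∀ S, T S = ∏ z ∈ S, (Polynomial.X - C (b z)) :=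
    ⟨_, fun _ => rfl⟩
  have hTmap : ∀ S, (T S).map B.val.toRingHom = ∏ z ∈ S, (Polynomial.X - C (z : Ω)) := fun S => by
    rw [hT, Polynomial.map_prod]
    exact Finset.prod_congr rfl fun z _ => by simp [hb]
  have hbad : ∀ S ∈ (Finset.univ : Finset (Finset Z)).filter (fun S => S.Nonempty ∧ S ≠ Finset.univ),
      ∃ (j : ℕ) (q : (MvPolynomial (Fin n) ℤ)[X]), q.Monic ∧ 2 ≤ q.natDegree ∧
        Irreducible (q.map (MvPolynomial.map (Int.castRingHom ℚ))) ∧
        aeval ((T S).coeff j) q = 0 := by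
    intro S hS
    obtain ⟨hSne, hSu⟩ := (Finset.mem_filter.1 hS).2
    obtain ⟨j, hj⟩ : ∃ j, (((T S).coeff j : B) : Ω) ∉ Set.range (algebraMap K Ω) := by
      by_contra hno
      push Not at hno
      have hl : (T S).map B.val.toRingHom ∈ lifts (algebraMap K Ω) :=
        (lifts_iff_coeff_lifts _).2 fun j => by rw [coeff_map]; exact hno j
      have hTm : ((T S).map B.val.toRingHom).Monic := by
        rw [hTmap]; exact monic_prod_of_monic _ _ fun z _ => monic_X_sub_C _
      obtain ⟨h₀, hh₀, -, hh₀m⟩ := lifts_and_degree_eq_and_monic hl hTm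
      have hdvd : h₀ ∣ gK := (map_dvd_map _ (algebraMap K Ω).injective hh₀m).1 (by
        rw [hh₀, ← hgΩ', hTmap, hprod, ← Finset.prod_coe_sort Z]
        exact Finset.prod_dvd_prod_of_subset _ _ _ (Finset.subset_univ S))
      have hdeg : h₀.natDegree = S.card := by
        rw [← natDegree_map_eq_of_injective (algebraMap K Ω).injective h₀, hh₀, hTmap,
          natDegree_prod_of_monic _ _ fun z _ => monic_X_sub_C _]
        simp
      have hZcard : gK.natDegree = Z.card := by
        rw [← natDegree_map_eq_of_injective (algebraMap K Ω).injective gK, ← hgΩ', hprod,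
          natDegree_prod_of_monic _ _ fun z _ => monic_X_sub_C _]
        simp
      rcases hgKirr.dvd_iff.1 hdvd with hu | has
      · rw [hh₀m.eq_one_of_isUnit hu, natDegree_one] at hdeg
        exact absurd hdeg.symm (Nat.pos_iff_ne_zero.1 hSne.card_pos)
      · rw [← eq_of_monic_of_associated (hgK ▸ hgm.map _) hh₀m has, hZcard] at hdeg
        exact hSu ((Finset.card_eq_iff_eq_univ S).1 (by rw [Fintype.card_coe]; exact hdeg.symm))
    obtain ⟨β, hβ⟩ : ∃ β : Ω, β = (((T S).coeff j : B) : Ω) := ⟨_, rfl⟩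
    have hβint : IsIntegral (MvPolynomial (Fin n) ℤ) β := by
      have h2 := ((T S).coeff j).2
      rw [← hβ] at hj
      rw [hβ]
      exact (Algebra.IsIntegral.isIntegral ((T S).coeff j)).map B.val
    have hK : (minpoly (MvPolynomial (Fin n) ℤ) β).map (algebraMap _ K) = minpoly K β :=
      (minpoly.isIntegrallyClosed_eq_field_fractions' K hβint).symm
    have hβK : IsIntegral K β := hβint.tower_top
    refine ⟨j, minpoly (MvPolynomial (Fin n) ℤ) β, minpoly.monic hβint, ?_,
      irreducible_map_of_isFractionRing (minpoly.monic hβint) (hK ▸ minpoly.irreducible hβK), ?_⟩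
    · rw [← (minpoly.monic hβint).natDegree_map (algebraMap _ K), hK]
      exact minpoly.two_le_natDegree_iff hβK |>.2 fun h => hj (hβ ▸ h)
    · apply Subtype.val_injective
      show B.val _ = _
      rw [← aeval_algHom_apply]
      show aeval (B.val ((T S).coeff j)) _ = _
      rw [show B.val ((T S).coeff j) = β from hβ.symm, minpoly.aeval]
      rfl
  choose! j q hqm hqd hqirr hqroot using hbad
  refine (SmallSet.biUnion _ fun S hS => smallSet_ratRootSet (hqd S hS) (hqirr S hS)).mono ?_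
  intro x hx
  obtain ⟨gx, hgx⟩ : ∃ gx, gx = spec g (fun i => (x i : ℚ)) := ⟨_, rfl⟩
  have hgxm : gx.Monic := hgx ▸ hgm.map _
  have hgxd : gx.natDegree = g.natDegree := hgx ▸ hgm.natDegree_map _
  have hpos : 0 < g.natDegree := by
    have := hgKirr.natDegree_pos
    rwa [hgK, hgm.natDegree_map] at this
  obtain ⟨L, _, _, ψ, hψ⟩ := exists_specialisation_hom
    (B := B) (fun a a' h => hinjΩ (congrArg Subtype.val h)) x
  have hψ' : ψ.comp (algebraMap (MvPolynomial (Fin n) ℤ) B) =
      (algebraMap ℚ L).comp (MvPolynomial.eval₂Hom (Int.castRingHom ℚ) fun i => (x i : ℚ)) := by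
    rw [hψ]
    exact MvPolynomial.ringHom_ext (fun r => by simp) fun i => by simp
  have hgB : g.map (algebraMap (MvPolynomial (Fin n) ℤ) B) = T Finset.univ := by
    refine Polynomial.map_injective B.val.toRingHom Subtype.val_injective ?_
    rw [hTmap, Polynomial.map_map, Finset.prod_coe_sort Z fun z => Polynomial.X - C z, ← hprod, hgΩ]
    rfl
  have hgL : gx.map (algebraMap ℚ L) = ∏ z : Z, (Polynomial.X - C (ψ (b z))) := by
    rw [hgx, spec, Polynomial.map_map, ← hψ', ← Polynomial.map_map, hgB, hT, Polynomial.map_prod]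
    simp
  obtain ⟨h₁, h₂, h₁m, h₂m, hmul, hd₁, hd₂⟩ : ∃ h₁ h₂ : ℚ[X], h₁.Monic ∧ h₂.Monic ∧ h₁ * h₂ = gx ∧
      h₁.natDegree ≠ 0 ∧ h₂.natDegree ≠ 0 := by
    have hne : gx ≠ 1 := fun e => by rw [e, natDegree_one] at hgxd; omega
    by_contra hno
    push Not at hno
    exact hx (hgx ▸ hgxm.irreducible_iff_natDegree.2 ⟨hne, fun f₁ f₂ h1 h2 h12 =>
      (em _).imp_right fun h => hno f₁ f₂ h1 h2 h12 h⟩)
  obtain ⟨S, -, hS⟩ := exists_subset_of_dvd (Finset.univ : Finset Z) (fun z => ψ (b z))
    (h₁.map (algebraMap ℚ L)) (h₁m.map _) (by rw [← hgL, ← hmul, Polynomial.map_mul]; exact dvd_mul_right _ _)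
  have hScard : h₁.natDegree = S.card := by
    rw [← natDegree_map_eq_of_injective (algebraMap ℚ L).injective h₁, hS,
      natDegree_prod_of_monic _ _ fun z _ => monic_X_sub_C _]
    simp
  have hSmem : S ∈ (Finset.univ : Finset (Finset Z)).filter
      (fun S => S.Nonempty ∧ S ≠ Finset.univ) := by
    refine Finset.mem_filter.2 ⟨Finset.mem_univ _, Finset.card_pos.1 (by omega), fun e => ?_⟩
    have h1 : (Finset.univ : Finset Z).card = gx.natDegree := by
      rw [← natDegree_map_eq_of_injective (algebraMap ℚ L).injective gx, hgL,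
        natDegree_prod_of_monic _ _ fun z _ => monic_X_sub_C _]
      simp
    rw [e, h1, ← hmul, h₁m.natDegree_mul h₂m] at hScard
    omega
  refine ⟨S, hSmem, h₁.coeff (j S), ?_⟩
  apply (algebraMap ℚ L).injective
  have hc : algebraMap ℚ L (h₁.coeff (j S)) = ψ ((T S).coeff (j S)) := by
    rw [← coeff_map, hS, ← coeff_map, hT, Polynomial.map_prod]
    simp
  rw [spec, eval_map, hom_eval₂, hc, ← hψ', ← hom_eval₂, map_zero, ← aeval_def, hqroot S hSmem,
    map_zero]

/-- **Hilbert irreducibility with an error term.** -/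
theorem smallSet_reducible {f : (MvPolynomial (Fin n) ℤ)[X]} (hd : f.natDegree ≠ 0)
    (hirr : Irreducible (f.map (MvPolynomial.map (Int.castRingHom ℚ)))) :
    SmallSet {x | ¬Irreducible (spec f fun i => (x i : ℚ))} := by
  classical
  have hf0 : f ≠ 0 := fun e => hd (by rw [e, natDegree_zero])
  obtain ⟨hgm, -, hgirr⟩ := exists_monic ℚ hd hirr
  refine ((smallSet_reducible_monic hgm hgirr).union (smallSet_zeros (K := ℚ)
    (R := f.leadingCoeff.map (Int.castRingHom ℚ))
    fun e => leadingCoeff_ne_zero.2 hf0 (MvPolynomial.map_injective _ Int.cast_injective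
      (e.trans (map_zero _).symm)))).mono fun x hx => ?_
  by_cases hl : MvPolynomial.eval (fun i => (x i : ℚ)) (f.leadingCoeff.map (Int.castRingHom ℚ)) = 0
  · exact Or.inr hl
  refine Or.inl fun h => hx ?_
  rw [spec] at h ⊢
  exact (Fermat.Agent.Hilbertian.irreducible_map_integralNormalization_iff _ f
    (by rwa [MvPolynomial.eval_map] at hl)).1 h

end FA.ThinSets

end
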