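import Fermat.Agent.OdoniJones.Frobenius
import Fermat.Agent.Hilbertian.Galois
import Fermat.Agent.LangWeilAll.Consequences

/-!
# Reduction of finitely many algebraic numbers at a positive proportion of primes

Finitely many algebraic numbers lie in a ring `ℤ[γ, 1 / M]` which has a homomorphism to `𝔽_p`
whenever the minimal polynomial of `γ` has a root modulo `p ∤ M`; and absolute irreducibility
survives such homomorphisms for all large `p`.
-/

set_option autoImplicit false
set_option linter.style.haveILetI false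

noncomputable section

namespace FA.ThinSets

open Filter Topology

local notation "Qb" => AlgebraicClosure ℚ

/-- The primes up to `N` to which `R` maps. -/
def goodPrimes (R : Subring Qb) (N : ℕ) : Finset ℕ := by
  classical
  exact (Finset.Icc 1 N).filter fun p => p.Prime ∧ Nonempty (R →+* ZMod p)

theorem mem_goodPrimes {R : Subring Qb} {N p : ℕ} :
    p ∈ goodPrimes R N ↔ p ≤ N ∧ p.Prime ∧ Nonempty (R →+* ZMod p) := by
  classical
  rw [goodPrimes, Finset.mem_filter, Finset.mem_Icc]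
  exact ⟨fun h => ⟨h.1.2, h.2⟩, fun h => ⟨⟨h.2.1.one_le, h.1⟩, h.2⟩⟩

section Primes

open Polynomial

theorem exists_denominator (r : ℚ[X]) : ∃ (b : ℤ) (P : ℤ[X]), b ≠ 0 ∧
    P.map (Int.castRingHom ℚ) = C (b : ℚ) * r := by
  obtain ⟨b, hb, h⟩ := IsLocalization.integerNormalization_spec (nonZeroDivisors ℤ) r
  refine ⟨b, IsLocalization.integerNormalization (nonZeroDivisors ℤ) r, nonZeroDivisors.ne_zero hb,
    ?_⟩
  rw [← algebraMap_int_eq, h, ← Int.cast_smul_eq_zsmul ℚ, Polynomial.smul_eq_C_mul]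

/-- A monic irreducible polynomial has a root modulo a positive proportion of the primes. -/
theorem exists_density_root {f : ℤ[X]} (hf : f.Monic)
    (hirr : Irreducible (f.map (Int.castRingHom ℚ))) :
    ∃ δ : ℝ, 0 < δ ∧
      HasseEvenOrder.HasPrimeDensity (fun p => Fermat.Agent.RootsModP.rootsMod f p ≠ 0) δ := by
  obtain ⟨fQ, hfQ⟩ : ∃ fQ, fQ = f.map (Int.castRingHom ℚ) := ⟨_, rfl⟩
  have hsep : fQ.Separable := (hfQ ▸ hirr).separable
  obtain ⟨L, hL⟩ : ∃ L : IntermediateField ℚ Qb, L = IntermediateField.adjoin ℚ (fQ.rootSet Qb) :=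
    ⟨_, rfl⟩
  haveI : IsSplittingField ℚ L fQ :=
    hL ▸ IntermediateField.adjoin_rootSet_isSplittingField (IsAlgClosed.splits _)
  haveI : FiniteDimensional ℚ L := IsSplittingField.finiteDimensional L fQ
  haveI : NumberField L := { }
  haveI : IsGalois ℚ L := IsGalois.of_separable_splitting_field (p := fQ) hsep
  have hs : ((f.map (Int.castRingHom ℚ)).map (algebraMap ℚ L)).Splits :=
    hfQ ▸ IsSplittingField.splits L fQ
  obtain ⟨N, hN0, hN⟩ := Fermat.Agent.RootsModP.exists_bad_primes_roots hf (hfQ ▸ hsep) hs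
  refine ⟨_, ?_, HasseEvenOrder.hasPrimeDensity_of_frobenius (L := L)
    (P := fun p => Fermat.Agent.RootsModP.rootsMod f p ≠ 0)
    (C := fun σ => Fermat.Agent.RootsModP.fixedRoots f σ ≠ 0)
    (fun g x hg => by rw [Fermat.Agent.RootsModP.fixedRoots_conj]; exact hg) hN0
    fun q hq hd Q hQ hqQ τ hτ => by rw [hN q hq hd Q hQ hqQ τ hτ]⟩
  refine div_pos (Nat.cast_pos.2 ?_) (Nat.cast_pos.2 Nat.card_pos)
  haveI : Nonempty {σ : L ≃ₐ[ℚ] L |
      Fermat.Agent.RootsModP.fixedRoots f σ ≠ 0} := by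
    refine ⟨⟨1, ?_⟩⟩
    show Fermat.Agent.RootsModP.fixedRoots f 1 ≠ 0
    refine Nat.ne_of_gt ((Set.ncard_pos (((f.map (Int.castRingHom ℚ)).rootSet_finite _).subset
      fun x hx => hx.1)).2 ?_)
    obtain ⟨x, hx⟩ := hs.exists_eval_eq_zero (by
      rw [degree_map]
      exact (degree_pos_of_irreducible hirr).ne')
    refine ⟨x, ?_, rfl⟩
    rw [mem_rootSet]
    exact ⟨hirr.ne_zero, by rwa [aeval_def, ← eval_map]⟩
  exact Nat.card_pos

theorem eventually_le_primeCount {P : ℕ → Prop} {δ : ℝ} (hδ : 0 < δ)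
    (h : HasseEvenOrder.HasPrimeDensity P δ) :
    ∀ᶠ N : ℕ in atTop, δ / 2 * ((N : ℝ) / Real.log N) ≤ HasseEvenOrder.primeCount P N := by
  filter_upwards [(tendsto_order.1 h).1 (δ / 2) (by linarith), eventually_ge_atTop 2] with N hN h2
  have hl : 0 < Real.log N := Real.log_pos (by exact_mod_cast h2)
  have hN0 : (0 : ℝ) < N := by exact_mod_cast Nat.lt_of_lt_of_le two_pos h2
  rw [lt_div_iff₀ hN0] at hN
  rw [mul_div_assoc', div_le_iff₀ hl]
  exact hN.le

theorem eventually_sub_le {δ : ℝ} (hδ : 0 < δ) (B : ℕ) :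
    ∀ᶠ N : ℕ in atTop, (B : ℝ) ≤ δ * ((N : ℝ) / Real.log N) := by
  filter_upwards [(tendsto_order.1 (HasseEvenOrder.tendsto_const_mul_log_div (B : ℝ))).2 δ hδ,
    eventually_ge_atTop 2] with N hN h2
  have hl : 0 < Real.log N := Real.log_pos (by exact_mod_cast h2)
  have hN0 : (0 : ℝ) < N := by exact_mod_cast Nat.lt_of_lt_of_le two_pos h2
  rw [div_lt_iff₀ hN0] at hN
  rw [mul_div_assoc', le_div_iff₀ hl]
  exact hN.le

/-- **Reduction at a positive proportion of primes.** -/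
theorem exists_subring (s : Finset Qb) :
    ∃ R : Subring Qb, (∀ x ∈ s, x ∈ R) ∧ ∃ κ : ℝ, 0 < κ ∧
      ∀ᶠ N : ℕ in atTop, κ * ((N : ℝ) / Real.log N) ≤ (goodPrimes R N).card := by
  classical
  obtain ⟨K, hK⟩ : ∃ K : IntermediateField ℚ Qb, K = IntermediateField.adjoin ℚ (s : Set Qb) :=
    ⟨_, rfl⟩
  haveI : FiniteDimensional ℚ K := by
    rw [hK]
    exact IntermediateField.finiteDimensional_adjoin fun x _ =>
      Algebra.IsIntegral.isIntegral x
  obtain ⟨θ₀, hθ₀⟩ := Field.exists_primitive_element ℚ K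
  obtain ⟨⟨b, hb⟩, hint⟩ := IsIntegral.exists_multiple_integral_of_isLocalization
    (nonZeroDivisors ℤ) (θ₀ : Qb) (Algebra.IsIntegral.isIntegral (R := ℚ) _)
  have hint : IsIntegral ℤ (b • (θ₀ : Qb)) := hint
  obtain ⟨γ, hγ⟩ : ∃ γ : Qb, γ = b • (θ₀ : Qb) := ⟨_, rfl⟩
  rw [← hγ] at hint
  have hb0 : (b : ℚ) ≠ 0 := Int.cast_ne_zero.2 (nonZeroDivisors.ne_zero hb)
  have hmem : ∀ x ∈ s, ∃ r : ℚ[X], aeval γ r = x := by
    intro x hx
    have hxK : x ∈ K := hK ▸ IntermediateField.subset_adjoin ℚ _ hx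
    have h1 : (⟨x, hxK⟩ : K) ∈ IntermediateField.adjoin ℚ ({θ₀} : Set K) :=
      hθ₀ ▸ IntermediateField.mem_top
    rw [← IntermediateField.mem_toSubalgebra,
      IntermediateField.adjoin_simple_toSubalgebra_of_isAlgebraic
        (Algebra.IsIntegral.isIntegral θ₀).isAlgebraic,
      Algebra.adjoin_singleton_eq_range_aeval] at h1
    obtain ⟨r, hr⟩ := h1
    refine ⟨r.comp (C (b : ℚ)⁻¹ * X), ?_⟩
    rw [aeval_comp, map_mul, aeval_C, aeval_X, hγ, ← Int.cast_smul_eq_zsmul ℚ, ← Algebra.smul_def,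
      smul_smul, inv_mul_cancel₀ hb0, one_smul]
    exact (aeval_algHom_apply K.val θ₀ r).trans (congrArg Subtype.val hr)
  choose! r hr using hmem
  choose bd Pd hbd hPd using fun x => exists_denominator (r x)
  obtain ⟨M, hM⟩ : ∃ M : ℤ, M = ∏ x ∈ s, bd x := ⟨_, rfl⟩
  have hM0 : M ≠ 0 := hM ▸ Finset.prod_ne_zero_iff.2 fun x _ => hbd x
  obtain ⟨π, hπ⟩ : ∃ π : ℤ[X] →+* Qb, π = (aeval γ).toRingHom := ⟨_, rfl⟩
  have hπC : π (C M) = (M : Qb) := by simp [hπ]
  have hπM : π (C M) ≠ 0 := by rw [hπC]; exact Int.cast_ne_zero.2 hM0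
  obtain ⟨R, -, -, hR⟩ := Fermat.Agent.Hilbertian.exists_extension π π (fun _ h => h) hπM hπM
  refine ⟨R, fun x hx => ?_, ?_⟩
  · obtain ⟨c, hc⟩ : bd x ∣ M := hM ▸ Finset.dvd_prod_of_mem _ hx
    refine (hR x).2 ⟨C c * Pd x, 1, ?_⟩
    have h1 : π (Pd x) = (bd x : Qb) * x := by
      show π (Pd x) = _
      rw [hπ]
      show aeval γ (Pd x) = _
      rw [← aeval_map_algebraMap ℚ γ (Pd x), algebraMap_int_eq, hPd x, map_mul, aeval_C, hr x hx,
        map_intCast]
    rw [map_mul, h1, pow_one, hπC, show π (C c) = (c : Qb) by simp [hπ], hc, Int.cast_mul]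
    ring
  obtain ⟨f, hf⟩ : ∃ f, f = minpoly ℤ γ := ⟨_, rfl⟩
  have hfm : f.Monic := hf ▸ minpoly.monic hint
  have hfirr : Irreducible (f.map (Int.castRingHom ℚ)) := by
    rw [hf, ← algebraMap_int_eq, ← minpoly.isIntegrallyClosed_eq_field_fractions' ℚ hint]
    exact minpoly.irreducible (Algebra.IsIntegral.isIntegral γ)
  obtain ⟨δ, hδ, hdens⟩ := exists_density_root hfm hfirr
  refine ⟨δ / 4, by linarith, ?_⟩
  filter_upwards [eventually_le_primeCount hδ hdens,
    eventually_sub_le (show 0 < δ / 4 by linarith) M.natAbs.primeFactors.card] with N h1 h2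
  have hsub : ((Finset.Icc 1 N).filter fun p =>
      p.Prime ∧ Fermat.Agent.RootsModP.rootsMod f p ≠ 0) \ M.natAbs.primeFactors ⊆
      goodPrimes R N := by
    intro p hp
    rw [Finset.mem_sdiff, Finset.mem_filter, Finset.mem_Icc] at hp
    obtain ⟨⟨⟨-, hpN⟩, hp, hroot⟩, hpM⟩ := hp
    haveI : Fact p.Prime := ⟨hp⟩
    refine mem_goodPrimes.2 ⟨hpN, hp, ?_⟩
    obtain ⟨c, hc⟩ := Set.nonempty_of_ncard_ne_zero hroot
    have hδp : (Polynomial.eval₂RingHom (Int.castRingHom (ZMod p)) c) (C M) ≠ 0 := by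
      rw [coe_eval₂RingHom, eval₂_C, eq_intCast, Ne, ZMod.intCast_zmod_eq_zero_iff_dvd,
        Int.natCast_dvd]
      intro hd
      exact hpM (Nat.mem_primeFactors.2 ⟨hp, hd, Int.natAbs_ne_zero.2 hM0⟩)
    obtain ⟨R', φ, -, hR'⟩ := Fermat.Agent.Hilbertian.exists_extension π
      (Polynomial.eval₂RingHom (Int.castRingHom (ZMod p)) c) (fun P hP => by
        obtain ⟨T, hT⟩ : f ∣ P := hf ▸ minpoly.isIntegrallyClosed_dvd hint (by
          rw [hπ] at hP
          exact hP)
        rw [hT, map_mul, coe_eval₂RingHom]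
        rw [show eval₂ (Int.castRingHom (ZMod p)) c f = 0 from (eval_map _ _).symm.trans hc,
          zero_mul]) hπM hδp
    have hRR : R' = R := Subring.ext fun x => (hR' x).trans (hR x).symm
    exact ⟨hRR ▸ φ⟩
  have h3 : HasseEvenOrder.primeCount (fun p => Fermat.Agent.RootsModP.rootsMod f p ≠ 0) N ≤
      (goodPrimes R N).card + M.natAbs.primeFactors.card := by
    rw [HasseEvenOrder.primeCount]
    refine le_trans (Finset.card_le_card fun p hp => ?_) (Finset.card_union_le _ _)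
    by_cases hpM : p ∈ M.natAbs.primeFactors
    · exact Finset.mem_union_right _ hpM
    · exact Finset.mem_union_left _ (hsub (Finset.mem_sdiff.2 ⟨by simpa using hp, hpM⟩))
  have h3' : (HasseEvenOrder.primeCount (fun p => Fermat.Agent.RootsModP.rootsMod f p ≠ 0) N : ℝ) ≤
      (goodPrimes R N).card + M.natAbs.primeFactors.card := by exact_mod_cast h3
  linarith

end Primes

section Irreducible

open MvPolynomial Fermat.Agent.AxKochen
open FA.AxFiniteFields (member eventually_natCast_ne_zero eventually_irreducible_member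
  irreducible_of_irreducible_map irreducible_map_iff)

theorem exists_int_poly {R : Subring Qb} {r : R} (hr : r ≠ 0) :
    ∃ q : Polynomial ℤ, q.coeff 0 ≠ 0 ∧ Polynomial.aeval r q = 0 := by
  obtain ⟨q, hq, hq'⟩ : ∃ q : Polynomial ℤ, q ≠ 0 ∧ Polynomial.aeval r q = 0 := by
    obtain ⟨q, hq, hq'⟩ := (Algebra.IsAlgebraic.isAlgebraic (R := ℚ) (r : Qb))
    obtain ⟨b, P, hb, hP⟩ := exists_denominator q
    refine ⟨P, fun e => ?_, ?_⟩
    · rw [e, Polynomial.map_zero, eq_comm, mul_eq_zero, Polynomial.C_eq_zero] at hP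
      exact hP.elim (Int.cast_ne_zero.2 hb) hq
    · apply Subtype.val_injective
      show R.subtype (Polynomial.aeval r P) = 0
      rw [Polynomial.aeval_def, Polynomial.hom_eval₂,
        RingHom.ext_int (R.subtype.comp (algebraMap ℤ R)) (algebraMap ℤ Qb), ← Polynomial.aeval_def,
        ← Polynomial.aeval_map_algebraMap ℚ]
      show Polynomial.aeval (r : Qb) _ = 0
      rw [algebraMap_int_eq, hP, map_mul, hq', mul_zero]
  obtain ⟨n, hn⟩ : ∃ n, q.natTrailingDegree = n := ⟨_, rfl⟩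
  induction n generalizing q with
  | zero =>
    exact ⟨q, fun e => Polynomial.trailingCoeff_nonzero_iff_nonzero.2 hq
      (by rw [Polynomial.trailingCoeff, hn, e]), hq'⟩
  | succ n ih =>
    obtain ⟨q', rfl⟩ : Polynomial.X ∣ q :=
      Polynomial.X_dvd_iff.2 (Polynomial.coeff_eq_zero_of_lt_natTrailingDegree (by omega))
    have hq0' : q' ≠ 0 := right_ne_zero_of_mul hq
    rw [Polynomial.natTrailingDegree_mul Polynomial.X_ne_zero hq0',
      Polynomial.natTrailingDegree_X] at hn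
    rw [map_mul, Polynomial.aeval_X, mul_eq_zero, or_iff_right hr] at hq'
    exact ih q' hq0' hq' (by omega)

theorem ne_zero_of_hom {R : Subring Qb} {r : R} (hr : r ≠ 0) :
    ∃ p₀ : ℕ, ∀ p : ℕ, p₀ ≤ p → ∀ φ : R →+* ZMod p, φ r ≠ 0 := by
  obtain ⟨q, hq0, hq⟩ := exists_int_poly hr
  refine ⟨(q.coeff 0).natAbs + 1, fun p hp φ e => ?_⟩
  have h1 := congrArg φ hq
  rw [Polynomial.aeval_def, Polynomial.hom_eval₂, map_zero, e, Polynomial.eval₂_at_zero] at h1
  rw [RingHom.ext_int (φ.comp (algebraMap ℤ R)) (Int.castRingHom (ZMod p)), eq_intCast,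
    ZMod.intCast_zmod_eq_zero_iff_dvd, Int.natCast_dvd] at h1
  have := Nat.le_of_dvd (Int.natAbs_pos.2 hq0) h1
  omega

/-- **Absolute irreducibility survives reduction.** -/
theorem exists_irreducible_hom {σ : Type} [Finite σ] (R : Subring Qb) (F : MvPolynomial σ R)
    (h : Irreducible (F.map R.subtype)) :
    ∃ p₀ : ℕ, ∀ p : ℕ, ∀ [Fact p.Prime], p₀ ≤ p → ∀ φ : R →+* ZMod p,
      Irreducible ((F.map φ).map (algebraMap (ZMod p) (AlgebraicClosure (ZMod p)))) := by
  classical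
  haveI hfact : ∀ p : Nat.Primes, Fact (p : ℕ).Prime := fun p => ⟨p.2⟩
  obtain ⟨bad, hbad⟩ : ∃ bad : Set Nat.Primes, ∀ p : Nat.Primes, p ∈ bad ↔
      ∃ φ : R →+* AlgebraicClosure (ZMod (p : ℕ)), ¬Irreducible (F.map φ) :=
    ⟨{p | ∃ φ : R →+* AlgebraicClosure (ZMod (p : ℕ)), ¬Irreducible (F.map φ)}, fun _ => Iff.rfl⟩
  suffices hfin : bad.Finite by
    refine ⟨(hfin.toFinset.image fun p : Nat.Primes => (p : ℕ)).sup id + 1,
      fun p hp hle φ => ?_⟩
    by_contra hirr
    rw [MvPolynomial.map_map] at hirr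
    have hmem : (⟨p, hp.out⟩ : Nat.Primes) ∈ bad := (hbad ⟨p, hp.out⟩).2 ⟨_, hirr⟩
    have := Finset.le_sup (f := id) (Finset.mem_image.2
      ⟨_, hfin.mem_toFinset.2 hmem, rfl⟩ : p ∈ hfin.toFinset.image fun p : Nat.Primes => (p : ℕ))
    simp only [id_eq] at this
    omega
  by_contra hinf
  haveI := Set.Infinite.cofinite_inf_principal_neBot hinf
  obtain ⟨U, hU⟩ : ∃ U : Ultrafilter Nat.Primes,
      (U : Filter Nat.Primes) ≤ Filter.cofinite ⊓ Filter.principal bad :=
    ⟨Ultrafilter.of _, Ultrafilter.of_le _⟩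
  obtain ⟨hUc, hUb⟩ := le_inf_iff.1 hU
  -- the index set of the ultraproduct is the bad primes
  obtain ⟨V, hV⟩ : ∃ V : Ultrafilter bad,
      (V : Filter bad) = Filter.comap Subtype.val (U : Filter Nat.Primes) :=
    ⟨U.comap Subtype.val_injective (by
      rw [Subtype.range_coe]
      exact hUb (Filter.mem_principal_self bad)), Ultrafilter.coe_comap _ _ _⟩
  choose φ hφ using fun p : bad => (hbad p.1).1 p.2
  haveI : CharZero (UltraField V fun p : bad => AlgebraicClosure (ZMod ((p : Nat.Primes) : ℕ))) := by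
    refine ultraField_charZero fun n hn => ?_
    rw [hV, Filter.eventually_comap]
    refine ((eventually_natCast_ne_zero n hn).filter_mono hUc).mono fun p hp b hb e => ?_
    subst hb
    rw [← map_natCast (algebraMap (ZMod ((b : Nat.Primes) : ℕ))
        (AlgebraicClosure (ZMod ((b : Nat.Primes) : ℕ)))), map_eq_zero,
      ZMod.natCast_eq_zero_iff] at e
    exact ((b : Nat.Primes).2.coprime_iff_not_dvd.1 hp) e
  let Ω := UltraField V fun p : bad => AlgebraicClosure (ZMod ((p : Nat.Primes) : ℕ))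
  obtain ⟨Φ, hΦ⟩ : ∃ Φ : R →+* Ω, Φ = (umk V _).comp (RingHom.pi φ) := ⟨_, rfl⟩
  have hΦinj : Function.Injective Φ := by
    refine (injective_iff_map_eq_zero Φ).2 fun r hr => ?_
    by_contra hr0
    obtain ⟨q, hq, hqr⟩ := exists_int_poly hr0
    have h1 := congrArg Φ hqr
    rw [Polynomial.aeval_def, Polynomial.hom_eval₂, map_zero, hr, Polynomial.eval₂_at_zero,
      RingHom.ext_int (Φ.comp (algebraMap ℤ R)) (Int.castRingHom Ω), eq_intCast,
      Int.cast_eq_zero] at h1
    exact hq h1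
  have hirr : Irreducible ((F.map (RingHom.pi φ)).map (umk V _)) := by
    rw [MvPolynomial.map_map, ← hΦ]
    refine irreducible_of_irreducible_map (algebraMap Ω (AlgebraicClosure Ω)) ?_
    let k := Subfield.closure (R : Set Qb)
    let ι : R →+* k := R.subtype.codRestrict k fun x => Subfield.subset_closure x.2
    letI := ι.toAlgebra
    haveI : FaithfulSMul R k := (faithfulSMul_iff_algebraMap_injective R k).2 fun a b e =>
      Subtype.ext (congrArg (fun t : k => (t : Qb)) e)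
    haveI : IsFractionRing R k := by
      exact IsFractionRing.of_field R k fun z => by
        obtain ⟨x, hx⟩ := z
        rw [← SetLike.mem_coe] at hx
        obtain ⟨a, ha, b, hb, rfl⟩ := Subfield.mem_closure_iff.1 hx
        rw [Subring.closure_eq] at ha hb
        exact ⟨⟨a, ha⟩, ⟨b, hb⟩, Subtype.ext rfl⟩
    haveI : Algebra.IsAlgebraic k Qb := Algebra.IsAlgebraic.tower_top (K := ℚ) k
    haveI : IsAlgClosure k Qb := ⟨inferInstance, inferInstance⟩
    obtain ⟨Ψ, hΨ⟩ : ∃ Ψ : k →+* AlgebraicClosure Ω,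
        ∀ x, Ψ (ι x) = algebraMap Ω (AlgebraicClosure Ω) (Φ x) :=
      ⟨IsFractionRing.lift (g := (algebraMap Ω (AlgebraicClosure Ω)).comp Φ)
        ((algebraMap Ω (AlgebraicClosure Ω)).injective.comp hΦinj),
        fun x => IsFractionRing.lift_algebraMap _ x⟩
    have h1 := (irreducible_map_iff (M := Qb) Ψ (F.map ι)).1 (by rw [MvPolynomial.map_map]; exact h)
    rw [MvPolynomial.map_map] at h1 ⊢
    rw [show Ψ.comp ι = (algebraMap Ω (AlgebraicClosure Ω)).comp Φ from RingHom.ext hΨ] at h1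
    exact h1
  obtain ⟨p, hp⟩ := (eventually_irreducible_member hirr).exists
  refine hφ p ?_
  rw [member, MvPolynomial.map_map] at hp
  exact hp

end Irreducible

end FA.ThinSets

end
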